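/-
Programme TW (S56), pillar (S), sub-programme G2 (choice of Taylor–Wiles primes, architect helper59),
leaf (G2-3) INFLATE  =  the old brick (C6c) `GWIface2_97.InflRange`  (helper9).

* `exists_conj_inertia` : for a finite Galois `L ⊂ ℚ̄` and two places `A`, `B` of `ℚ̄` over the same
  prime `q`, every element of the inertia group `I_A` is, modulo `Gal(ℚ̄/L)`, conjugate to an element
  of `I_B`.
* `kerSubgroup M c` : the normal subgroup `{h | ρ h = 1 ∧ c h = 0}` attached to a 1-cocycle.
* `inflRange` : `GWIface2_97.InflRange S S' h M` for `M` good for `S`: a class of `H¹(G_{S'}, M)`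
  whose localisations at the places of `S' \ S` are unramified (lie in `H1ur`) is inflated from
  `H¹(G_S, M)`.
* `res1_infl1`, `infl1_injective`.
* `sel_eq_bot_of_forall`, `sel_eq_bot_of_kill`, `sel_eq_bot_of_kill'` : the step `S → S ∪ Q` for
  Selmer groups (the `⊥` condition at the new places), in the shape used by `TWKill`.

ONLY EXTERNAL INPUT: `InertiaHit q` (local–global bridge, `G2-1 (c)` of `LocGlob59`), a hypothesis:
the inertia group of the canonical place over `q` is hit, modulo `Gal(ℚ̄/L)`, by the inertia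
subgroup `localInertia q` of the local Galois group.
-/
import Mathlib
import Fermat.Agent.TW.GWIface2_97
import Fermat.Agent.PT.BR.UnramBridge13
import Fermat.Agent.PT.BR.LevelBridge13

set_option autoImplicit false
set_option linter.unusedSectionVars false

open NumberField groupCohomology
open scoped Pointwise NNReal
open ExtCitation
open Fermat.Agent.S13.UnramRam Fermat.Agent.S13.UnramVal
open Fermat.Agent.PT.PRO Fermat.Agent.PT.BR Fermat.Agent.PT.BR.LevelBridge13
open Fermat.Agent.TW.GWIface97 Fermat.Agent.TW.GWIface2_97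

namespace Fermat.Agent.TW.TWP59.Inflate9

local notation "Qbar" => AlgebraicClosure ℚ
local notation "Γ" => (AlgebraicClosure ℚ ≃ₐ[ℚ] AlgebraicClosure ℚ)

local instance isAlgClosureQbar9 : IsAlgClosure ℚ Qbar := ⟨inferInstance, inferInstance⟩
local instance normalQbar9 : Normal ℚ Qbar := IsAlgClosure.normal ℚ Qbar
local instance isGaloisQbar9 : IsGalois ℚ Qbar := IsAlgClosure.isGalois ℚ Qbar

section Conj

variable (L : IntermediateField ℚ Qbar) [FiniteDimensional ℚ L] [IsGalois ℚ L]

/-- The prime of `𝓞 L` below a place over `q` lies over `(q)`. -/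
theorem primeBelow_liesOver {q : ℕ} (hq : q.Prime) {A : ValuationSubring Qbar}
    (hA : A.LiesOverPrime q) : (primeBelow L A).LiesOver (Ideal.span {(q : ℤ)}) := by
  have hmax : (Ideal.span {(q : ℤ)}).IsMaximal :=
    PrincipalIdealRing.isMaximal_of_irreducible (Nat.prime_iff_prime_int.mp hq).irreducible
  refine ⟨?_⟩
  have hle : Ideal.span {(q : ℤ)} ≤ (primeBelow L A).under ℤ := by
    rw [Ideal.span_singleton_le_iff_mem, Ideal.under_def, Ideal.mem_comap, mem_primeBelow_iff]
    have : ((((algebraMap ℤ (𝓞 L)) (q : ℤ) : 𝓞 L) : L) : Qbar) = ((q : ℕ) : Qbar) := by simp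
    rw [this]
    exact hA
  have hne : (primeBelow L A).under ℤ ≠ ⊤ := by
    have : ((primeBelow L A).under ℤ).IsPrime := inferInstance
    exact this.ne_top
  exact hmax.eq_of_le hne hle

/-- **Inertia groups at two places over the same prime are conjugate modulo `Gal(ℚ̄/L)`.** -/
theorem exists_conj_inertia {q : ℕ} (hq : q.Prime) {A B : ValuationSubring Qbar}
    (hA : A.LiesOverPrime q) (hB : B.LiesOverPrime q) {σ : Γ}
    (hσ : σ ∈ A.inertiaSubgroupIn ℚ) :
    ∃ τ : Γ, ∃ σ' ∈ B.inertiaSubgroupIn ℚ, (τ * σ' * τ⁻¹)⁻¹ * σ ∈ L.fixingSubgroup := by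
  have hs := Fermat.Agent.PT.BR.UnramBridge13.restrictNormal_mem_inertia L A hσ
  set s := AlgEquiv.restrictNormalHom L σ with hsdef
  have := primeBelow_liesOver L hq hA
  have := primeBelow_liesOver L hq hB
  obtain ⟨t, ht⟩ := Ideal.exists_smul_eq_of_isGaloisGroup (Ideal.span {(q : ℤ)})
    (primeBelow L B) (primeBelow L A) (L ≃ₐ[ℚ] L)
  obtain ⟨τ, hτ⟩ := AlgEquiv.restrictNormalHom_surjective (F := ℚ) (K₁ := L) Qbar t
  -- the conjugate `t⁻¹ s t` lies in the inertia group of `primeBelow L B`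
  have hs' : ∀ x : 𝓞 L, (t⁻¹ * s * t) • x - x ∈ primeBelow L B := by
    intro x
    have h1 : s • (t • x) - t • x ∈ t • primeBelow L B := by
      rw [ht]
      exact hs (t • x)
    rw [Ideal.mem_pointwise_smul_iff_inv_smul_mem, smul_sub, inv_smul_smul, smul_smul,
      smul_smul] at h1
    exact h1
  have hs'' : ∀ x : L, IsIntegral ℤ x →
      ((((t⁻¹ * s * t) x : L) : Qbar) - x) ∈ B.nonunits := by
    intro x hx
    obtain ⟨x', hxx⟩ := Fermat.Agent.S14.UnramLevel.exists_integer_eq L hx
    have h1 := hs' x'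
    rw [mem_primeBelow_iff] at h1
    have h2 : (((t⁻¹ * s * t) • x' - x' : 𝓞 L) : L) = (t⁻¹ * s * t) x - x := by
      change algebraMap (𝓞 L) L ((t⁻¹ * s * t) • x' - x') = _
      rw [map_sub]
      change (((t⁻¹ * s * t) • x' : 𝓞 L) : L) - ((x' : 𝓞 L) : L) = _
      rw [Fermat.Agent.S14.UnramLevel.coe_smul_integer, hxx]
    rw [h2] at h1
    simpa using h1
  obtain ⟨σ', hσ'I, hσ'L⟩ :=
    Fermat.Agent.S13.UnramBridge.exists_inertia_lift L B hq hB (t⁻¹ * s * t) hs''
  refine ⟨τ, σ', hσ'I, ?_⟩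
  have hres : AlgEquiv.restrictNormalHom L σ' = t⁻¹ * s * t := by
    ext x
    have := AlgEquiv.restrictNormal_commutes σ' L x
    exact this.trans (hσ'L x)
  have key : AlgEquiv.restrictNormalHom L (τ * σ' * τ⁻¹) = s := by
    rw [map_mul, map_mul, map_inv, hτ, hres]
    group
  rw [IntermediateField.mem_fixingSubgroup_iff]
  intro x hx
  have h1 : (τ * σ' * τ⁻¹) x = σ x := by
    have e1 := AlgEquiv.restrictNormal_commutes (τ * σ' * τ⁻¹) L ⟨x, hx⟩
    have e2 := AlgEquiv.restrictNormal_commutes σ L ⟨x, hx⟩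
    have e3 : (τ * σ' * τ⁻¹).restrictNormal L = σ.restrictNormal L := key
    rw [e3] at e1
    exact e1.symm.trans e2
  rw [AlgEquiv.mul_apply, ← h1, ← AlgEquiv.mul_apply, inv_mul_cancel,
    AlgEquiv.one_apply]

end Conj


/-! ### The canonical place over `q` -/

/-- The canonical place `padicPlace q` of `ℚ̄` lies over `q`. -/
theorem padicPlace_liesOver (q : ℕ) [Fact q.Prime] : (padicPlace q).LiesOverPrime q := by
  have hq : q.Prime := Fact.out
  show ((q : ℕ) : AlgebraicClosure ℚ) ∈ (padicPlace q).nonunits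
  rw [ValuationSubring.mem_nonunits_iff_or]
  right
  rw [mem_padicPlace_iff, map_inv₀, map_natCast, nnnorm_inv, not_le]
  have h1 : ‖((q : ℕ) : PadicAlgCl q)‖₊ = 1 / (q : ℝ≥0) := by
    have := PadicAlgCl.valuation_p q
    rwa [PadicAlgCl.valuation_def] at this
  rw [h1, one_div, inv_inv]
  exact_mod_cast hq.one_lt

/-- `primeLocalPlace q` lies over `q`. -/
theorem primeLocalPlace_liesOver (q : Nat.Primes) : (primeLocalPlace q).LiesOverPrime q :=
  letI : Fact (q : ℕ).Prime := ⟨q.2⟩
  padicPlace_liesOver (q : ℕ)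

/-! ### The kernel subgroup of a cocycle -/

section Kernel

variable {k : Type} [CommRing k] {G : Type} [Group G] (M : Rep.{0} k G)

/-- For a 1-cocycle `c`, the subgroup of the elements acting trivially on `M` at which `c`
vanishes (the kernel of `g ↦ (c g, ρ g)` into the semidirect product). -/
def kerSubgroup (c : G → M) (hc : c ∈ cocycles₁ M) : Subgroup G where
  carrier := {h | M.ρ h = 1 ∧ c h = 0}
  one_mem' := by
    refine ⟨map_one _, ?_⟩
    have := (mem_cocycles₁_iff c).1 hc 1 1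
    rw [mul_one, map_one, Module.End.one_apply] at this
    exact left_eq_add.mp this
  mul_mem' := by
    rintro a b ⟨ha1, ha2⟩ ⟨hb1, hb2⟩
    refine ⟨by rw [map_mul, ha1, hb1, one_mul], ?_⟩
    rw [(mem_cocycles₁_iff c).1 hc a b, hb2, ha2, map_zero, add_zero]
  inv_mem' := by
    rintro a ⟨ha1, ha2⟩
    have h1 : M.ρ a⁻¹ = 1 := by
      have : M.ρ a⁻¹ * M.ρ a = 1 := by rw [← map_mul, inv_mul_cancel, map_one]
      rwa [ha1, mul_one] at this
    refine ⟨h1, ?_⟩
    have h2 := (mem_cocycles₁_iff c).1 hc a⁻¹ a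
    have h3 : c 1 = 0 := by
      have := (mem_cocycles₁_iff c).1 hc 1 1
      rw [mul_one, map_one, Module.End.one_apply] at this
      exact left_eq_add.mp this
    rw [inv_mul_cancel, h3, ha2, map_zero, zero_add] at h2
    exact h2.symm

theorem mem_kerSubgroup_iff (c : G → M) (hc : c ∈ cocycles₁ M) (h : G) :
    h ∈ kerSubgroup M c hc ↔ M.ρ h = 1 ∧ c h = 0 := Iff.rfl

theorem kerSubgroup_normal (c : G → M) (hc : c ∈ cocycles₁ M) : (kerSubgroup M c hc).Normal := by
  refine ⟨fun n hn g => ?_⟩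
  obtain ⟨hn1, hn2⟩ := hn
  have hco := (mem_cocycles₁_iff c).1 hc
  have h1 : c 1 = 0 := (kerSubgroup M c hc).one_mem.2
  refine ⟨?_, ?_⟩
  · rw [map_mul, map_mul, hn1, mul_one, ← map_mul, mul_inv_cancel, map_one]
  · have h2 : c (g * g⁻¹) = M.ρ g (c g⁻¹) + c g := hco g g⁻¹
    rw [mul_inv_cancel, h1] at h2
    rw [hco (g * n) g⁻¹, hco g n, hn2, map_zero, zero_add, map_mul, hn1, mul_one]
    exact h2.symm

/-- A cocycle is invariant under right translation by its kernel subgroup. -/
theorem invOn₁_kerSubgroup (c : G → M) (hc : c ∈ cocycles₁ M) :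
    LevelCoh28.InvOn₁ (kerSubgroup M c hc) c := by
  rintro g s ⟨-, hs⟩
  rw [(mem_cocycles₁_iff c).1 hc g s, hs, map_zero, zero_add]

end Kernel


/-! ### The inflation theorem -/

section Inflation

variable {p : ℕ} [Fact p.Prime]

/-- **External input** (local–global bridge, `G2-1 (c)`): every element of the inertia group of
the canonical place over `q` is, modulo `Gal(ℚ̄/L)` for any finite Galois `L`, the image of an
element of the inertia subgroup of the local Galois group. -/
def InertiaHit (q : Nat.Primes) : Prop :=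
  ∀ L : IntermediateField ℚ Qbar, FiniteDimensional ℚ L → IsGalois ℚ L →
    ∀ σ ∈ (primeLocalPlace q).inertiaSubgroupIn ℚ,
      ∃ g ∈ localInertia q, ∀ x ∈ L, primeLocalToGlobal q g x = σ x

/-- A global cocycle whose localisation at `q` is an unramified class vanishes on the image of
the local inertia group, provided `M` is unramified at `q`. -/
theorem apply_eq_zero_of_mem_localInertia {S S' : Finset Nat.Primes} {M : Rep.{0} (ZMod p) Γ}
    (hM : IsGood S M) {q : Nat.Primes} (hq : q ∉ S)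
    (c : ↥(LevelCoh28.Z1 (globalBasis S') M))
    (h : res1 S' q M (LevelCoh28.H1mk (globalBasis S') M c) ∈ H1ur q M)
    {g : primeLocalGaloisGroup q} (hg : g ∈ localInertia q) :
    (c : Γ → M) (primeLocalToGlobal q g) = 0 := by
  obtain ⟨z, hz, hzc⟩ := h
  rw [ShaBridge13.resH1_mk] at hzc
  have h1 := (Submodule.Quotient.eq _).mp hzc
  obtain ⟨m, hm⟩ := h1
  have h2 := congrFun hm g
  have hρ : M.ρ (primeLocalToGlobal q g) = 1 :=
    hM.unram q hq (primeLocalPlace q) (primeLocalPlace_liesOver q) _ hg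
  have hz0 : (z : primeLocalGaloisGroup q → M) g = 0 := hz g hg
  have h3 : (d₀₁ (Rep.res (primeLocalToGlobal q) M)).hom m g = 0 := by
    rw [d₀₁_hom_apply]
    change M.ρ (primeLocalToGlobal q g) m - m = 0
    rw [hρ, Module.End.one_apply, sub_self]
  rw [h3] at h2
  have h4 : (0 : M) = (z : primeLocalGaloisGroup q → M) g -
      (c : Γ → M) (primeLocalToGlobal q g) := h2
  rw [hz0, zero_sub, zero_eq_neg] at h4
  exact h4


/-- A cocycle of `G_{S'}` with unramified localisations at the places of `S' \ S` is a cocycle of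
`G_S` (for `M` unramified outside `S`). -/
theorem mem_Z1_of_unramified {S S' : Finset Nat.Primes} {M : Rep.{0} (ZMod p) Γ}
    (hM : IsGood S M) (hhit : ∀ q ∈ S', q ∉ S → InertiaHit q)
    (c : ↥(LevelCoh28.Z1 (globalBasis S') M))
    (h : ∀ q ∈ S', q ∉ S →
      res1 S' q M (LevelCoh28.H1mk (globalBasis S') M c) ∈ H1ur q M) :
    (c : Γ → M) ∈ LevelCoh28.Z1 (globalBasis S) M := by
  have hMfin : FiniteDimensional (ZMod p) M := hM.fin
  obtain ⟨hc, U, ⟨F, hF, rfl⟩, hU⟩ := c.2
  set c' : Γ → M := (c : Γ → M) with hc'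
  have hFfin : FiniteDimensional ℚ F := hF.1
  obtain ⟨L₁, hL₁S, -, hL₁⟩ :=
    exists_isUnramifiedOutside_forall_ρ_eq_one S M hM.smooth hM.unram
  have hL₁fin : FiniteDimensional ℚ L₁ := hL₁S.1
  have hsupfin : FiniteDimensional ℚ (F ⊔ L₁ : IntermediateField ℚ Qbar) :=
    IntermediateField.finiteDimensional_sup F L₁
  obtain ⟨L, hL, hLfin, hLgal⟩ := exists_isGalois_ge (F ⊔ L₁)
  set N : Subgroup Γ := kerSubgroup M c' hc with hN
  have hNnormal : N.Normal := kerSubgroup_normal M c' hc
  have hc1 : c' 1 = 0 := N.one_mem.2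
  -- `Gal(ℚ̄/F)` is contained in the kernel as far as `c` is concerned
  have hcF : ∀ s ∈ F.fixingSubgroup, c' s = 0 := by
    intro s hs
    have := hU 1 s hs
    rw [one_mul] at this
    rw [this, hc1]
  -- (a) `Gal(ℚ̄/L) ≤ N`
  have hLN : L.fixingSubgroup ≤ N := by
    intro s hs
    have hs' : s ∈ (F ⊔ L₁ : IntermediateField ℚ Qbar).fixingSubgroup :=
      IntermediateField.fixingSubgroup_antitone hL hs
    rw [IntermediateField.fixingSubgroup_sup] at hs'
    exact ⟨hL₁ s hs'.2, hcF s hs'.1⟩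
  -- (b) the inertia group of the canonical place over `q ∈ S' \ S` lies in `N`
  have hcan : ∀ q ∈ S', q ∉ S → (primeLocalPlace q).inertiaSubgroupIn ℚ ≤ N := by
    intro q hqS' hqS σ hσ
    obtain ⟨g, hg, hgσ⟩ := hhit q hqS' hqS L hLfin hLgal σ hσ
    have h1 : primeLocalToGlobal q g ∈ N :=
      ⟨hM.unram q hqS (primeLocalPlace q) (primeLocalPlace_liesOver q) _ hg,
        apply_eq_zero_of_mem_localInertia hM hqS c (h q hqS' hqS) hg⟩
    have h2 : (primeLocalToGlobal q g)⁻¹ * σ ∈ L.fixingSubgroup := by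
      rw [IntermediateField.mem_fixingSubgroup_iff]
      intro x hx
      rw [AlgEquiv.mul_apply, ← hgσ x hx, ← AlgEquiv.mul_apply, inv_mul_cancel,
        AlgEquiv.one_apply]
    have h3 := N.mul_mem h1 (hLN h2)
    rwa [mul_inv_cancel_left] at h3
  -- (c) all inertia groups at places not over `S` lie in `N`
  have hall : ∀ q : Nat.Primes, q ∉ S → ∀ A : ValuationSubring Qbar,
      A.LiesOverPrime (q : ℕ) → A.inertiaSubgroupIn ℚ ≤ N := by
    intro q hqS A hA σ hσ
    by_cases hqS' : q ∈ S'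
    · obtain ⟨τ, σ', hσ', hu⟩ :=
        exists_conj_inertia L q.2 hA (primeLocalPlace_liesOver q) hσ
      have h1 : τ * σ' * τ⁻¹ ∈ N := hNnormal.conj_mem σ' (hcan q hqS' hqS hσ') τ
      have h2 := N.mul_mem h1 (hLN hu)
      rwa [mul_inv_cancel_left] at h2
    · exact ⟨hM.unram q hqS A hA σ hσ, hcF σ (hF.2 q hqS' A hA hσ)⟩
  -- the fixed field of `N`
  have hNopen : IsOpen (N : Set Γ) := Subgroup.isOpen_mono hLN L.fixingSubgroup_isOpen
  have hNclosed : IsClosed (N : Set Γ) := Subgroup.isClosed_of_isOpen N hNopen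
  let Nc : ClosedSubgroup Γ := ⟨N, hNclosed⟩
  have hfix : (IntermediateField.fixedField N).fixingSubgroup = N :=
    InfiniteGalois.fixingSubgroup_fixedField Nc
  have hle : IntermediateField.fixedField N ≤ L := by
    have h1 := IntermediateField.fixedField_antitone hLN
    rwa [InfiniteGalois.fixedField_fixingSubgroup] at h1
  have hE : (IntermediateField.fixedField N).IsUnramifiedOutside S := by
    refine ⟨?_, fun q hq A hA g hg => ?_⟩
    · exact FiniteDimensional.of_injective (IntermediateField.inclusion hle).toLinearMap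
        (IntermediateField.inclusion_injective hle)
    · rw [hfix]
      exact hall q hq A hA hg
  refine ⟨hc, _, ⟨IntermediateField.fixedField N, hE, rfl⟩, ?_⟩
  rw [hfix]
  exact invOn₁_kerSubgroup M c' hc

/-- **(G2-3) = (C6c) `InflRange`**: a class of `H¹(G_{S'}, M)` which is unramified at all places
of `S' \ S` is inflated from `G_S`, for `M` good for `S`. -/
theorem inflRange {S S' : Finset Nat.Primes} (hSS' : S ⊆ S') {M : Rep.{0} (ZMod p) Γ}
    (hM : IsGood S M) (hhit : ∀ q ∈ S', q ∉ S → InertiaHit q) : InflRange S S' hSS' M := by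
  intro x hx
  obtain ⟨c, rfl⟩ := LevelCoh28.H1mk_surjective _ _ x
  have hc := mem_Z1_of_unramified hM hhit c hx
  refine ⟨LevelCoh28.H1mk (globalBasis S) M ⟨(c : Γ → M), hc⟩, ?_⟩
  rw [infl1_mk]
  rfl


/-! ### Compatibilities of inflation -/

/-- Localisation commutes with inflation. -/
theorem res1_infl1 {S S' : Finset Nat.Primes} (hSS' : S ⊆ S') (M : Rep.{0} (ZMod p) Γ)
    (q : Nat.Primes) (x : H1g S M) : res1 S' q M (infl1 hSS' M x) = res1 S q M x := by
  obtain ⟨c, rfl⟩ := LevelCoh28.H1mk_surjective _ _ x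
  rfl

/-- Inflation is injective (the coboundaries do not depend on the set of places). -/
theorem infl1_injective {S S' : Finset Nat.Primes} (hSS' : S ⊆ S') (M : Rep.{0} (ZMod p) Γ) :
    Function.Injective (infl1 hSS' M) := by
  rw [← LinearMap.ker_eq_bot, LinearMap.ker_eq_bot']
  intro x hx
  obtain ⟨c, rfl⟩ := LevelCoh28.H1mk_surjective _ _ x
  rw [infl1_mk, LevelCoh28.H1mk_eq_zero_iff] at hx
  rw [LevelCoh28.H1mk_eq_zero_iff]
  exact hx

/-- **Selmer groups and inflation** (general form).  Let `S ⊆ S'`, `M` good for `S`, and let `L'`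
be local conditions on `S'` which are contained in the unramified classes at the places of
`S' \ S`.  If the only class `x` of `H¹(G_S, M)` whose localisations satisfy `L'` at ALL places of
`S'` is zero, then the Selmer group `Sel S' M L'` vanishes. -/
theorem sel_eq_bot_of_forall {S S' : Finset Nat.Primes} (hSS' : S ⊆ S') {M : Rep.{0} (ZMod p) Γ}
    (hM : IsGood S M) (hhit : ∀ q ∈ S', q ∉ S → InertiaHit q)
    (L' : ∀ q : ↥S', Submodule (ZMod p) (H1l q.1 M))
    (hur : ∀ q : ↥S', q.1 ∉ S → L' q ≤ H1ur q.1 M)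
    (hkill : ∀ x : H1g S M, (∀ q : ↥S', res1 S q.1 M x ∈ L' q) → x = 0) :
    Sel S' M L' = ⊥ := by
  rw [eq_bot_iff]
  intro y hy
  rw [mem_Sel_iff] at hy
  obtain ⟨x, rfl⟩ := inflRange hSS' hM hhit y
    (fun q hqS' hqS => hur ⟨q, hqS'⟩ hqS (hy ⟨q, hqS'⟩))
  have hx : x = 0 := hkill x (fun q => by
    rw [← res1_infl1 hSS' M q.1 x]
    exact hy q)
  rw [hx, map_zero]
  exact Submodule.zero_mem _

/-- **(G2-3), Taylor–Wiles form**: for a TOTAL family of local conditions `Ld` and a decidable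
predicate `P` singling out the new places (`P q ↔ q ∉ S` on `S'`), the Selmer group for `S'` with
the conditions `⊥` at the new places and `Ld` on `S` vanishes as soon as no nonzero class of
`Sel S M Ld` localises to zero at all places of `S' \ S`. -/
theorem sel_eq_bot_of_kill {S S' : Finset Nat.Primes} (hSS' : S ⊆ S') {M : Rep.{0} (ZMod p) Γ}
    (hM : IsGood S M) (hhit : ∀ q ∈ S', q ∉ S → InertiaHit q)
    (Ld : ∀ v : Nat.Primes, Submodule (ZMod p) (H1l v M))
    (P : Nat.Primes → Prop) [DecidablePred P] (hP : ∀ q ∈ S', (P q ↔ q ∉ S))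
    (hkill : ∀ x ∈ Sel S M (fun q => Ld q.1),
      (∀ q ∈ S', q ∉ S → res1 S q M x = 0) → x = 0) :
    Sel S' M (fun q => if P q.1 then ⊥ else Ld q.1) = ⊥ := by
  apply sel_eq_bot_of_forall hSS' hM hhit
  · intro q hq
    rw [if_pos ((hP q.1 q.2).2 hq)]
    exact bot_le
  · intro x hx
    apply hkill x
    · rw [mem_Sel_iff]
      intro q
      have := hx ⟨q.1, hSS' q.2⟩
      rwa [if_neg (fun hPq => (hP q.1 (hSS' q.2)).1 hPq q.2)] at this
    · intro q hqS' hqS
      have := hx ⟨q, hqS'⟩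
      rwa [if_pos ((hP q hqS').2 hqS), Submodule.mem_bot] at this

/-- The same with the predicate `q ∉ S` itself. -/
theorem sel_eq_bot_of_kill' {S S' : Finset Nat.Primes} (hSS' : S ⊆ S') {M : Rep.{0} (ZMod p) Γ}
    (hM : IsGood S M) (hhit : ∀ q ∈ S', q ∉ S → InertiaHit q)
    (Ld : ∀ v : Nat.Primes, Submodule (ZMod p) (H1l v M))
    [DecidablePred fun v : Nat.Primes => v ∈ S]
    (hkill : ∀ x ∈ Sel S M (fun q => Ld q.1),
      (∀ q ∈ S', q ∉ S → res1 S q M x = 0) → x = 0) :
    Sel S' M (fun q => if q.1 ∈ S then Ld q.1 else ⊥) = ⊥ := by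
  have h := sel_eq_bot_of_kill hSS' hM hhit Ld (fun v => v ∉ S) (fun _ _ => Iff.rfl) hkill
  have e : (fun q : ↥S' => if q.1 ∉ S then (⊥ : Submodule (ZMod p) (H1l q.1 M)) else Ld q.1) =
      fun q : ↥S' => if q.1 ∈ S then Ld q.1 else ⊥ := by
    funext q
    by_cases hq : q.1 ∈ S
    · rw [if_pos hq, if_neg (not_not.mpr hq)]
    · rw [if_neg hq, if_pos hq]
  rw [← e]
  exact h

end Inflation

end Fermat.Agent.TW.TWP59.Inflate9
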