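/-
Programme TW (S56), brick G2 (choice of Taylor–Wiles primes), leaf (G2-1) — helper59.

**LOCAL–GLOBAL BRIDGE.**  `ι = padicEmbedding q : ℚ̄ → ℚ̄_q`, `P₀ = padicPlace q`.
FINITE-LEVEL SURJECTIVITY of `localGaloisToGlobal q : Gal(ℚ̄_q/ℚ_q) → Gal(ℚ̄/ℚ)` onto the decomposition
group of `P₀`: if `L ⊂ ℚ̄` is a finite extension of `ℚ` and `σ ∈ Gal(ℚ̄/ℚ)` maps `P₀ ∩ L` into `P₀`
(e.g. `σ` in the decomposition group of `P₀`), there is `g ∈ Gal(ℚ̄_q/ℚ_q)` with
`localGaloisToGlobal q g = σ` on `L`.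

Proof (no completions, no Krasner): `L = ℚ(θ)`, `m` the minimal polynomial of `ι θ` over `ℚ_q`.  If
`m (ι (σ θ)) ≠ 0`, approximate the coefficients of `m` by rationals: `f ∈ ℚ[X]` with `‖ι (f θ)‖ ≤ q⁻ⁿ`
but `‖ι (σ (f θ))‖ > q⁻ⁿ`; then `f θ / qⁿ ∈ P₀ ∩ L` and `σ (f θ / qⁿ) ∉ P₀`.  So `ι θ`, `ι (σ θ)` are
conjugate over `ℚ_q`.
-/
import Mathlib
import Fermat.Prelude.Def_GaloisRep_CompletionBridge
import Fermat.Prelude.Def_ExtEndgame_ProductionDatum

set_option autoImplicit false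

open Polynomial
open scoped Pointwise

namespace Fermat.Agent.TW.TWP59.LocGlob59

local notation "Qbar" => AlgebraicClosure ℚ
local notation "Γ" => (AlgebraicClosure ℚ ≃ₐ[ℚ] AlgebraicClosure ℚ)

section Approx

variable (q : ℕ) [Fact q.Prime]

/-- The sum `∑_{i ≤ d} ‖z‖ ^ i`. -/
noncomputable def geomBound (d : ℕ) (z : PadicAlgCl q) : ℝ := ∑ i ∈ Finset.range (d + 1), ‖z‖ ^ i

theorem geomBound_pos (d : ℕ) (z : PadicAlgCl q) : 0 < geomBound q d z := by
  unfold geomBound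
  rw [Finset.sum_range_succ']
  have : 0 ≤ ∑ i ∈ Finset.range d, ‖z‖ ^ (i + 1) :=
    Finset.sum_nonneg fun i _ => pow_nonneg (norm_nonneg z) _
  simp only [pow_zero]
  linarith

/-- Rational approximation of a polynomial over `ℚ_q`, uniformly on bounded sets. -/
theorem exists_rat_poly (m : ℚ_[q][X]) {ε : ℝ} (hε : 0 < ε) :
    ∃ f : ℚ[X], ∀ z : PadicAlgCl q,
      ‖aeval z m - aeval z f‖ ≤ ε * geomBound q m.natDegree z := by
  classical
  choose r hr using fun i : ℕ => Padic.rat_dense q (m.coeff i) hε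
  refine ⟨∑ i ∈ Finset.range (m.natDegree + 1), C (r i) * X ^ i, fun z => ?_⟩
  have h1 : aeval z m = ∑ i ∈ Finset.range (m.natDegree + 1), m.coeff i • z ^ i :=
    aeval_eq_sum_range z
  have h2 : aeval z (∑ i ∈ Finset.range (m.natDegree + 1), C (r i) * X ^ i : ℚ[X]) =
      ∑ i ∈ Finset.range (m.natDegree + 1), ((r i : ℚ_[q])) • z ^ i := by
    rw [map_sum]
    refine Finset.sum_congr rfl fun i _ => ?_
    rw [map_mul, aeval_C, map_pow, aeval_X, Algebra.smul_def]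
    congr 1
  rw [h1, h2, ← Finset.sum_sub_distrib, geomBound, Finset.mul_sum]
  refine (norm_sum_le _ _).trans (Finset.sum_le_sum fun i _ => ?_)
  rw [← sub_smul, norm_smul, norm_pow]
  exact mul_le_mul_of_nonneg_right (hr i).le (pow_nonneg (norm_nonneg z) _)

end Approx

section Main

variable (q : ℕ) [Fact q.Prime]

local instance isAlgClosurePadic : IsAlgClosure ℚ_[q] (PadicAlgCl q) :=
  ⟨inferInstance, inferInstance⟩
local instance normalPadic : Normal ℚ_[q] (PadicAlgCl q) := IsAlgClosure.normal ℚ_[q] (PadicAlgCl q)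

theorem norm_padicEmbedding_natCast_self :
    ‖padicEmbedding q ((q : ℕ) : Qbar)‖ = (q : ℝ)⁻¹ := by
  rw [map_natCast, ← map_natCast (algebraMap ℚ_[q] (PadicAlgCl q)), PadicAlgCl.norm_extends]
  exact Padic.norm_p

theorem mem_padicPlace_iff_norm {x : Qbar} : x ∈ padicPlace q ↔ ‖padicEmbedding q x‖ ≤ 1 := by
  rw [mem_padicPlace_iff, ← NNReal.coe_le_coe]
  rfl

theorem padicEmbedding_aeval (f : ℚ[X]) (x : Qbar) :
    padicEmbedding q (aeval x f) = aeval (padicEmbedding q x) f :=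
  (aeval_algHom_apply (padicEmbedding q) x f).symm

/-- Key step: if `σ` maps `P₀ ∩ L` into `P₀`, then `ι (σ θ)` is a root of the minimal polynomial of
`ι θ` over `ℚ_q`, for every `θ ∈ L`. -/
theorem aeval_minpoly_eq_zero (L : IntermediateField ℚ Qbar) (σ : Γ)
    (hσ : ∀ y ∈ L, y ∈ padicPlace q → σ y ∈ padicPlace q) {θ : Qbar} (hθ : θ ∈ L) :
    aeval (padicEmbedding q (σ θ)) (minpoly ℚ_[q] (padicEmbedding q θ)) = 0 := by
  by_contra hne
  set m := minpoly ℚ_[q] (padicEmbedding q θ) with hm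
  set z₁ := padicEmbedding q θ with hz₁
  set z₂ := padicEmbedding q (σ θ) with hz₂
  have hδ : 0 < ‖aeval z₂ m‖ := norm_pos_iff.mpr hne
  set δ := ‖aeval z₂ m‖ with hδdef
  have hq1 : (q : ℝ)⁻¹ < 1 := by
    have : (1 : ℝ) < q := by exact_mod_cast (Fact.out : q.Prime).one_lt
    exact inv_lt_one_of_one_lt₀ this
  have hq0 : (0 : ℝ) < (q : ℝ)⁻¹ := by
    have : (0 : ℝ) < q := by exact_mod_cast (Fact.out : q.Prime).pos
    exact inv_pos.mpr this
  obtain ⟨n, hn⟩ := exists_pow_lt_of_lt_one (half_pos hδ) hq1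
  set C₁ := geomBound q m.natDegree z₁
  set C₂ := geomBound q m.natDegree z₂
  have hC₁ : 0 < C₁ := geomBound_pos q _ _
  have hC₂ : 0 < C₂ := geomBound_pos q _ _
  have hpow : 0 < ((q : ℝ)⁻¹) ^ n := pow_pos hq0 n
  set ε := ((q : ℝ)⁻¹) ^ n / (C₁ + C₂) with hεdef
  have hε : 0 < ε := div_pos hpow (add_pos hC₁ hC₂)
  have hε₁ : ε * C₁ ≤ ((q : ℝ)⁻¹) ^ n := by
    rw [hεdef, div_mul_eq_mul_div, div_le_iff₀ (add_pos hC₁ hC₂)]
    nlinarith
  have hε₂ : ε * C₂ ≤ ((q : ℝ)⁻¹) ^ n := by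
    rw [hεdef, div_mul_eq_mul_div, div_le_iff₀ (add_pos hC₁ hC₂)]
    nlinarith
  obtain ⟨f, hf⟩ := exists_rat_poly q m hε
  set y : Qbar := aeval θ f with hy
  have hyL : y ∈ L := by
    have : y = ((aeval (⟨θ, hθ⟩ : L) f : L) : Qbar) :=
      IntermediateField.aeval_coe L (⟨θ, hθ⟩ : L) f
    rw [this]
    exact SetLike.coe_mem _
  -- `‖ι y‖ ≤ q⁻ⁿ`
  have h1 : ‖padicEmbedding q y‖ ≤ ((q : ℝ)⁻¹) ^ n := by
    rw [hy, padicEmbedding_aeval]
    have hroot : aeval z₁ m = 0 := minpoly.aeval _ _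
    have := hf z₁
    rw [hroot, zero_sub, norm_neg] at this
    exact this.trans hε₁
  -- `y / qⁿ ∈ P₀ ∩ L`
  have hyq : y / ((q : ℕ) : Qbar) ^ n ∈ padicPlace q := by
    rw [mem_padicPlace_iff_norm, map_div₀, map_pow, norm_div, norm_pow,
      norm_padicEmbedding_natCast_self]
    rw [div_le_one hpow]
    exact h1
  have hyqL : y / ((q : ℕ) : Qbar) ^ n ∈ L :=
    L.div_mem hyL (pow_mem (natCast_mem L q) n)
  -- hence `‖ι (σ y)‖ ≤ q⁻ⁿ`
  have h2 := hσ _ hyqL hyq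
  rw [map_div₀, map_pow, map_natCast, mem_padicPlace_iff_norm, map_div₀, map_pow, norm_div,
    norm_pow, norm_padicEmbedding_natCast_self, div_le_one hpow] at h2
  -- but `‖ι (σ y)‖ ≥ δ - ε C₂ > δ / 2`
  have h3 : padicEmbedding q (σ y) = aeval z₂ f := by
    rw [hy, ← padicEmbedding_aeval]
    congr 1
    exact (aeval_algHom_apply (σ : Qbar →ₐ[ℚ] Qbar) θ f).symm
  have h4 := hf z₂
  have h5 : δ ≤ ‖aeval z₂ m - aeval z₂ f‖ + ‖aeval z₂ f‖ := by
    have := norm_add_le (aeval z₂ m - aeval z₂ f) (aeval z₂ f)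
    rwa [sub_add_cancel] at this
  rw [h3] at h2
  linarith

/-- **Finite-level surjectivity onto the decomposition group**, elementwise form. -/
theorem exists_local_eq_on (L : IntermediateField ℚ Qbar) [FiniteDimensional ℚ L] (σ : Γ)
    (hσ : ∀ y ∈ L, y ∈ padicPlace q → σ y ∈ padicPlace q) :
    ∃ g : PadicAlgCl q ≃ₐ[ℚ_[q]] PadicAlgCl q, ∀ x ∈ L, localGaloisToGlobal q g x = σ x := by
  obtain ⟨α, hα⟩ := Field.exists_primitive_element ℚ L
  have hroot := aeval_minpoly_eq_zero q L σ hσ (θ := (α : Qbar)) α.2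
  have halg : IsAlgebraic ℚ_[q] (padicEmbedding q (α : Qbar)) :=
    Algebra.IsAlgebraic.isAlgebraic _
  obtain ⟨g, hg⟩ := minpoly.exists_algEquiv_of_root' halg hroot
  refine ⟨g, ?_⟩
  -- two `ℚ`-algebra maps `L → ℚ̄_q` agreeing on the primitive element
  let φ₁ : L →ₐ[ℚ] PadicAlgCl q :=
    ((g.restrictScalars ℚ : PadicAlgCl q →ₐ[ℚ] PadicAlgCl q).comp (padicEmbedding q)).comp L.val
  let φ₂ : L →ₐ[ℚ] PadicAlgCl q :=
    ((padicEmbedding q).comp (σ : Qbar →ₐ[ℚ] Qbar)).comp L.val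
  have hadj : Algebra.adjoin ℚ {α} = ⊤ := by
    have hint : IsAlgebraic ℚ α := Algebra.IsAlgebraic.isAlgebraic α
    have := IntermediateField.adjoin_simple_toSubalgebra_of_isAlgebraic hint
    rw [← this, hα, IntermediateField.top_toSubalgebra]
  have hφ : φ₁ = φ₂ := by
    refine AlgHom.ext_of_adjoin_eq_top hadj ?_
    rintro x hx
    rw [Set.mem_singleton_iff] at hx
    subst hx
    exact hg
  intro x hx
  have h : padicEmbedding q (localGaloisToGlobal q g x) = padicEmbedding q (σ x) := by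
    rw [padicEmbedding_localGaloisToGlobal]
    exact congrArg (fun φ : L →ₐ[ℚ] PadicAlgCl q => φ ⟨x, hx⟩) hφ
  exact (RingHom.injective (padicEmbedding q : Qbar →+* PadicAlgCl q)) h

/-- **Finite-level surjectivity onto the decomposition group.** -/
theorem exists_local_eq_on_of_mem_decomposition (L : IntermediateField ℚ Qbar)
    [FiniteDimensional ℚ L] (σ : Γ) (hσ : σ ∈ (padicPlace q).decompositionSubgroup ℚ) :
    ∃ g : PadicAlgCl q ≃ₐ[ℚ_[q]] PadicAlgCl q, ∀ x ∈ L, localGaloisToGlobal q g x = σ x := by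
  refine exists_local_eq_on q L σ fun y _ hy => ?_
  have h1 : σ • padicPlace q = padicPlace q := MulAction.mem_stabilizer_iff.mp hσ
  have h2 : σ y ∈ σ • padicPlace q := ⟨y, hy, rfl⟩
  rwa [h1] at h2

end Main

section Primes

open ExtCitation

/-- **(LG)** finite-level surjectivity of `primeLocalToGlobal q` onto the decomposition group of
`primeLocalPlace q`. -/
theorem primeLocal_surj (q : Nat.Primes) (L : IntermediateField ℚ Qbar) [FiniteDimensional ℚ L]
    (σ : Γ) (hσ : σ ∈ (primeLocalPlace q).decompositionSubgroup ℚ) :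
    ∃ g : primeLocalGaloisGroup q, ∀ x ∈ L, primeLocalToGlobal q g x = σ x := by
  have : Fact (q : ℕ).Prime := ⟨q.2⟩
  exact exists_local_eq_on_of_mem_decomposition (q : ℕ) L σ hσ

end Primes

end Fermat.Agent.TW.TWP59.LocGlob59
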