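/-
Programme TW (S56), brick G2-1(c) (helper96): FULL SURJECTIVITY of the local-to-global map onto the
decomposition group, and `InertiaHit`.

`ι = padicEmbedding q : ℚ̄ → ℚ̄_q`, `P₀ = padicPlace q`, `loc = localGaloisToGlobal q`.
`LocGlob59` proves finite-level surjectivity: for `σ` in the decomposition group of `P₀` and a finite
extension `L/ℚ` there is `g` with `loc g = σ` on `L`.  By compactness of `Gal(ℚ̄_q/ℚ_q)` (Krull
topology) the closed sets `{g | g (ι x) = ι (σ x)}`, `x ∈ ℚ̄`, have a common point, i.e.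

* `localGaloisToGlobal_surjOn` : every `σ` in the decomposition group of `P₀` is `loc g`;
* `primeLocalToGlobal_surjOn`  : the same for `primeLocalToGlobal q`, `primeLocalPlace q`;
* `exists_mem_localInertia`    : every `σ` in the inertia group of `primeLocalPlace q` is the image
  of an element of `localInertia q`;
* `inertiaHit`                 : `Inflate9.InertiaHit q` (the external input of `Inflate9`).
-/
import Mathlib
import Fermat.Prelude.Def_GaloisRep_CompletionBridge
import Fermat.Prelude.Def_ExtEndgame_ProductionDatum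
import Fermat.Agent.S05.Inertia
import Fermat.Agent.TW.GWIface2_97
import Fermat.Agent.TW.TWP59.LocGlob59
import Fermat.Agent.TW.TWP59.Inflate9

set_option autoImplicit false
set_option linter.style.haveILetI false

open scoped Pointwise

namespace Fermat.Agent.TW.TWP59.LocSurj96

local notation "Qbar" => AlgebraicClosure ℚ
local notation "Γ" => (AlgebraicClosure ℚ ≃ₐ[ℚ] AlgebraicClosure ℚ)

section Local

variable (q : ℕ) [Fact q.Prime]

/-- The set of automorphisms of `ℚ̄_q` sending `y` to `z` is closed in the Krull topology. -/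
theorem isClosed_setOf_apply_eq (y z : PadicAlgCl q) :
    IsClosed {g : PadicAlgCl q ≃ₐ[ℚ_[q]] PadicAlgCl q | g y = z} := by
  by_cases h : ∃ g0 : PadicAlgCl q ≃ₐ[ℚ_[q]] PadicAlgCl q, g0 y = z
  · obtain ⟨g0, hg0⟩ := h
    have hopen : IsOpen ((MulAction.stabilizer (PadicAlgCl q ≃ₐ[ℚ_[q]] PadicAlgCl q) y :
        Subgroup (PadicAlgCl q ≃ₐ[ℚ_[q]] PadicAlgCl q)) :
        Set (PadicAlgCl q ≃ₐ[ℚ_[q]] PadicAlgCl q)) :=
      stabilizer_isOpen_of_isIntegral y
    have hclosed : IsClosed ((MulAction.stabilizer (PadicAlgCl q ≃ₐ[ℚ_[q]] PadicAlgCl q) y :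
        Subgroup (PadicAlgCl q ≃ₐ[ℚ_[q]] PadicAlgCl q)) :
        Set (PadicAlgCl q ≃ₐ[ℚ_[q]] PadicAlgCl q)) :=
      Subgroup.isClosed_of_isOpen _ hopen
    have hset : {g : PadicAlgCl q ≃ₐ[ℚ_[q]] PadicAlgCl q | g y = z} =
        (fun g => g0⁻¹ * g) ⁻¹'
          ((MulAction.stabilizer (PadicAlgCl q ≃ₐ[ℚ_[q]] PadicAlgCl q) y :
            Subgroup (PadicAlgCl q ≃ₐ[ℚ_[q]] PadicAlgCl q)) :
            Set (PadicAlgCl q ≃ₐ[ℚ_[q]] PadicAlgCl q)) := by
      ext g
      simp only [Set.mem_ofPred_eq, Set.mem_preimage, SetLike.mem_coe,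
        MulAction.mem_stabilizer_iff]
      show g y = z ↔ (g0⁻¹ * g) y = y
      rw [AlgEquiv.mul_apply]
      constructor
      · intro hg
        rw [hg, ← hg0]
        exact g0.symm_apply_apply y
      · intro hg
        have := congrArg g0 hg
        rw [show g0 (g0⁻¹ (g y)) = g y from g0.apply_symm_apply (g y)] at this
        rw [this, hg0]
    rw [hset]
    exact hclosed.preimage (continuous_const_mul _)
  · have hset : {g : PadicAlgCl q ≃ₐ[ℚ_[q]] PadicAlgCl q | g y = z} = ∅ := by
      ext g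
      simp only [Set.mem_ofPred_eq, Set.mem_empty_iff_false, iff_false]
      exact fun hg => h ⟨g, hg⟩
    rw [hset]
    exact isClosed_empty

/-- **Full surjectivity onto the decomposition group** of the canonical place over `q`. -/
theorem localGaloisToGlobal_surjOn (σ : Γ)
    (hσ : σ ∈ (padicPlace q).decompositionSubgroup ℚ) :
    ∃ g : PadicAlgCl q ≃ₐ[ℚ_[q]] PadicAlgCl q, localGaloisToGlobal q g = σ := by
  classical
  have key := (isCompact_univ (X := PadicAlgCl q ≃ₐ[ℚ_[q]] PadicAlgCl q)).inter_iInter_nonempty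
    (fun x : Qbar => {g : PadicAlgCl q ≃ₐ[ℚ_[q]] PadicAlgCl q |
      g (padicEmbedding q x) = padicEmbedding q (σ x)})
    (fun x => isClosed_setOf_apply_eq q _ _) ?_
  · obtain ⟨g, -, hg⟩ := key
    refine ⟨g, ?_⟩
    apply AlgEquiv.ext
    intro x
    have hx : g (padicEmbedding q x) = padicEmbedding q (σ x) := Set.mem_iInter.mp hg x
    apply (RingHom.injective (padicEmbedding q : Qbar →+* PadicAlgCl q))
    show padicEmbedding q (localGaloisToGlobal q g x) = padicEmbedding q (σ x)
    rw [padicEmbedding_localGaloisToGlobal]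
    exact hx
  · intro u
    haveI : FiniteDimensional ℚ (IntermediateField.adjoin ℚ (u : Set Qbar)) :=
      IntermediateField.finiteDimensional_adjoin
        (fun x _ => (Algebra.IsIntegral.isIntegral (R := ℚ) x))
    obtain ⟨g, hg⟩ := LocGlob59.exists_local_eq_on_of_mem_decomposition q
      (IntermediateField.adjoin ℚ (u : Set Qbar)) σ hσ
    refine ⟨g, Set.mem_univ _, ?_⟩
    simp only [Set.mem_iInter]
    intro x hx
    show g (padicEmbedding q x) = padicEmbedding q (σ x)
    rw [← padicEmbedding_localGaloisToGlobal,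
      hg x (IntermediateField.subset_adjoin ℚ _ (Finset.mem_coe.mpr hx))]

end Local

section Primes

open ExtCitation Fermat.Agent.TW.GWIface2_97

/-- `primeLocalToGlobal q` maps ONTO the decomposition group of `primeLocalPlace q`. -/
theorem primeLocalToGlobal_surjOn (q : Nat.Primes) (σ : Γ)
    (hσ : σ ∈ (primeLocalPlace q).decompositionSubgroup ℚ) :
    ∃ g : primeLocalGaloisGroup q, primeLocalToGlobal q g = σ := by
  haveI : Fact (q : ℕ).Prime := ⟨q.2⟩
  exact localGaloisToGlobal_surjOn (q : ℕ) σ hσ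

/-- `localInertia q` maps ONTO the inertia group of `primeLocalPlace q`. -/
theorem exists_mem_localInertia (q : Nat.Primes) (σ : Γ)
    (hσ : σ ∈ (primeLocalPlace q).inertiaSubgroupIn ℚ) :
    ∃ g ∈ localInertia q, primeLocalToGlobal q g = σ := by
  obtain ⟨g, hg⟩ := primeLocalToGlobal_surjOn q σ
    (Fermat.Agent.S05.Inertia.mem_decompositionSubgroup hσ)
  refine ⟨g, ?_, hg⟩
  show primeLocalToGlobal q g ∈ (primeLocalPlace q).inertiaSubgroupIn ℚ
  rw [hg]; exact hσ

/-- **`InertiaHit`** (the external input of `Inflate9`). -/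
theorem inertiaHit (q : Nat.Primes) : Fermat.Agent.TW.TWP59.Inflate9.InertiaHit q := by
  intro L _ _ σ hσ
  obtain ⟨g, hg, hgσ⟩ := exists_mem_localInertia q σ hσ
  exact ⟨g, hg, fun x _ => by rw [hgσ]⟩

end Primes

end Fermat.Agent.TW.TWP59.LocSurj96
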