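/-
Programme TW (S56), brick G2 (K1) (helper24): three auxiliary lemmas consumed by `KeyPrime59`.

* `good_of_zpow_mul` (K1a) : `Good ρbar (φ ^ z * u)`, `ρbar.ρ u = 1`  ⇒  `Good ρbar φ`;
* `dvd_sub_one_of_frobenius` (K1b) : a Frobenius element at a place over `q ≠ p` which fixes
  `μ_{p^(n+1)}` forces `p ^ (n + 1) ∣ q - 1`;
* `exists_field_le_Cn` (K1c) : `ℚ(μ_{p^(n+1)})` is a finite extension of `ℚ`, unramified outside
  `{p}`, whose fixing subgroup lies in `Cn p n`.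
-/
import Fermat.Agent.TW.SelAd24a
import Fermat.Agent.ES.J.CycloChar8
import Fermat.Prelude.Def_GroupCohomology_ContinuousUnramified

set_option autoImplicit false

open Polynomial Matrix ExtCitation
open Fermat.Agent.TW.SelAd24a

namespace Fermat.Agent.TW.TWP59.KeyAux24

local notation "Γ" => (AlgebraicClosure ℚ ≃ₐ[ℚ] AlgebraicClosure ℚ)
local notation "Qb" => AlgebraicClosure ℚ

/-! ### (K1a) -/

section K1a

variable {k : Type} [Field k]

/-- The discriminant of `a • M + b • 1`. -/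
theorem discr_smul_add_smul_one (M : Matrix (Fin 2) (Fin 2) k) (a b : k) :
    (a • M + b • (1 : Matrix (Fin 2) (Fin 2) k)).discr = a ^ 2 * M.discr := by
  rw [discr_fin_two, discr_fin_two, det_fin_two, det_fin_two, trace_fin_two, trace_fin_two]
  simp only [Matrix.add_apply, Matrix.smul_apply, one_apply_eq, smul_eq_mul, ne_eq, zero_ne_one, one_ne_zero,
    not_false_eq_true, one_apply_ne, mul_zero, add_zero, mul_one]
  ring

/-- Cayley–Hamilton for `2 × 2` matrices. -/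
theorem sq_eq (M : Matrix (Fin 2) (Fin 2) k) :
    M * M = M.trace • M - M.det • (1 : Matrix (Fin 2) (Fin 2) k) := by
  ext i j
  fin_cases i <;> fin_cases j <;>
    simp [Matrix.mul_apply, Fin.sum_univ_two, det_fin_two, trace_fin_two] <;> ring

/-- Every integral power of `M ∈ GL₂(k)` is of the form `a • M + b • 1`. -/
theorem exists_zpow_eq (M : GL (Fin 2) k) (z : ℤ) :
    ∃ a b : k, ((M ^ z : GL (Fin 2) k) : Matrix (Fin 2) (Fin 2) k) =
      a • (M : Matrix (Fin 2) (Fin 2) k) + b • (1 : Matrix (Fin 2) (Fin 2) k) := by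
  have hd : (M : Matrix (Fin 2) (Fin 2) k).det ≠ 0 := by
    have := (Matrix.isUnit_iff_isUnit_det _).mp M.isUnit
    exact this.ne_zero
  -- the inverse of `M`
  have hinv : ((M⁻¹ : GL (Fin 2) k) : Matrix (Fin 2) (Fin 2) k) =
      (-(M : Matrix (Fin 2) (Fin 2) k).det⁻¹) • (M : Matrix (Fin 2) (Fin 2) k) +
        ((M : Matrix (Fin 2) (Fin 2) k).det⁻¹ * (M : Matrix (Fin 2) (Fin 2) k).trace) •
          (1 : Matrix (Fin 2) (Fin 2) k) := by
    have e1 : ∀ (c₁ c₂ t d : k) (N : Matrix (Fin 2) (Fin 2) k),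
        c₁ • (t • N - d • (1 : Matrix (Fin 2) (Fin 2) k)) + c₂ • N =
          (c₁ * t + c₂) • N + (-(c₁ * d)) • (1 : Matrix (Fin 2) (Fin 2) k) := by
      intro c₁ c₂ t d N
      module
    have h1 : (M : Matrix (Fin 2) (Fin 2) k) *
        ((-(M : Matrix (Fin 2) (Fin 2) k).det⁻¹) • (M : Matrix (Fin 2) (Fin 2) k) +
        ((M : Matrix (Fin 2) (Fin 2) k).det⁻¹ * (M : Matrix (Fin 2) (Fin 2) k).trace) •
          (1 : Matrix (Fin 2) (Fin 2) k)) = 1 := by
      rw [mul_add, mul_smul_comm, mul_smul_comm, sq_eq, mul_one, e1]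
      have c1 : -(M : Matrix (Fin 2) (Fin 2) k).det⁻¹ * (M : Matrix (Fin 2) (Fin 2) k).trace +
          (M : Matrix (Fin 2) (Fin 2) k).det⁻¹ * (M : Matrix (Fin 2) (Fin 2) k).trace = 0 := by
        ring
      have c2 : -(-(M : Matrix (Fin 2) (Fin 2) k).det⁻¹ * (M : Matrix (Fin 2) (Fin 2) k).det)
          = 1 := by
        rw [neg_mul, neg_neg, inv_mul_cancel₀ hd]
      rw [c1, c2, zero_smul, zero_add, one_smul]
    exact Units.inv_eq_of_mul_eq_one_right h1
  induction z using Int.induction_on with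
  | zero => exact ⟨0, 1, by simp⟩
  | succ n ih =>
    obtain ⟨a, b, h⟩ := ih
    refine ⟨a * (M : Matrix (Fin 2) (Fin 2) k).trace + b,
      -(a * (M : Matrix (Fin 2) (Fin 2) k).det), ?_⟩
    rw [_root_.zpow_add_one, Units.val_mul, h, add_mul, smul_mul_assoc, smul_mul_assoc, one_mul,
      sq_eq, smul_sub, smul_smul, smul_smul, add_smul, neg_smul]
    abel
  | pred n ih =>
    obtain ⟨a, b, h⟩ := ih
    refine ⟨-(b * (M : Matrix (Fin 2) (Fin 2) k).det⁻¹),
      a + b * ((M : Matrix (Fin 2) (Fin 2) k).det⁻¹ * (M : Matrix (Fin 2) (Fin 2) k).trace), ?_⟩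
    have hM : (M : Matrix (Fin 2) (Fin 2) k) * ((M⁻¹ : GL (Fin 2) k) : Matrix (Fin 2) (Fin 2) k)
        = 1 := by
      rw [← Units.val_mul, mul_inv_cancel, Units.val_one]
    rw [_root_.zpow_sub_one, Units.val_mul, h, add_mul, smul_mul_assoc, smul_mul_assoc, one_mul,
      hM, hinv, smul_add, smul_smul, smul_smul, add_smul, neg_smul, mul_neg, neg_smul]
    abel

/-- `discr (M ^ z) ≠ 0 → discr M ≠ 0`. -/
theorem discr_ne_zero_of_zpow (M : GL (Fin 2) k) (z : ℤ)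
    (h : ((M ^ z : GL (Fin 2) k) : Matrix (Fin 2) (Fin 2) k).discr ≠ 0) :
    (M : Matrix (Fin 2) (Fin 2) k).discr ≠ 0 := by
  obtain ⟨a, b, hab⟩ := exists_zpow_eq M z
  rw [hab, discr_smul_add_smul_one] at h
  exact right_ne_zero_of_mul h

variable (ρbar : ResidualGaloisRep k)

/-- **(K1a)** If `φ ^ z * u` has distinct eigenvalues, where `ρbar u = 1`, then so has `φ`. -/
theorem good_of_zpow_mul
    (hsplit : ∀ σ : Γ, ∃ α β : k, LinearMap.charpoly (ρbar.ρ σ) = (X - C α) * (X - C β))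
    {φ u : Γ} {z : ℤ} (hu : ρbar.ρ u = 1) (h : Good ρbar (φ ^ z * u)) : Good ρbar φ := by
  rw [good_iff_discr_ne_zero ρbar (stdBasis ρbar) hsplit] at h ⊢
  have hu1 : rhoM ρbar (stdBasis ρbar) u = 1 := by
    apply Units.ext
    rw [rhoM_val, hu, Units.val_one]
    exact LinearMap.toMatrix_one _
  rw [map_mul, hu1, mul_one, map_zpow] at h
  exact discr_ne_zero_of_zpow _ z h

end K1a

/-! ### (K1b) -/

section K1b

variable (p : ℕ) [Fact p.Prime]

/-- **(K1b)** A Frobenius element at a place over `q ≠ p` fixing `μ_{p^(n+1)}` forces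
`q ≡ 1 mod p^(n+1)`. -/
theorem dvd_sub_one_of_frobenius {q : ℕ} (hq : q.Prime) (hqp : q ≠ p)
    (A : ValuationSubring Qb) (hA : A.LiesOverPrime q) {φ : Γ} (hφ : A.IsFrobeniusAt φ q)
    {n : ℕ} (hφC : φ ∈ Cn p n) : p ^ (n + 1) ∣ q - 1 := by
  have hp : p.Prime := Fact.out
  have hN0 : p ^ (n + 1) ≠ 0 := pow_ne_zero _ hp.ne_zero
  obtain ⟨ζ, hζ⟩ := Fermat.Agent.ES.J.CycloChar8.exists_primitiveRoot p (n + 1)
  have hζN : ζ ^ p ^ (n + 1) = 1 := hζ.pow_eq_one
  have hζ0 : ζ ≠ 0 := hζ.ne_zero hN0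
  have hζA : ζ ∈ A := Fermat.Agent.ES.J.CycloChar8.mem_of_pow_eq_one hN0 hζN
  have hφζ : φ ζ = ζ := (mem_Cn_iff p n φ).mp hφC ζ hζN
  have h1 : ζ - ζ ^ q ∈ A.nonunits := by
    have := Fermat.Agent.ES.J.CycloChar8.frob_apply_sub_pow_mem_nonunits hφ hζA
    rwa [hφζ] at this
  have hq1 : q = (q - 1) + 1 := by have := hq.one_le; omega
  have hη : (ζ ^ (q - 1)) ^ p ^ (n + 1) = 1 := by
    rw [← pow_mul, mul_comm, pow_mul, hζN, one_pow]
  have hη1 : ζ ^ (q - 1) - 1 ∈ A.nonunits := by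
    have e : ζ ^ (q - 1) - 1 = -((ζ - ζ ^ q) * ζ⁻¹) := by
      conv_rhs => rw [hq1, pow_succ]
      field_simp
      ring
    rw [e, ValuationSubring.mem_nonunits_iff (A := A), Valuation.map_neg, map_mul,
      Fermat.Agent.ES.J.CycloChar8.valuation_eq_one_of_pow_eq_one hN0 (η := ζ⁻¹)
        (by rw [inv_pow, hζN, inv_one]), mul_one]
    exact (ValuationSubring.mem_nonunits_iff (A := A)).mp h1
  have hqN : ¬ q ∣ p ^ (n + 1) := fun hd =>
    hqp ((Nat.prime_dvd_prime_iff_eq hq hp).mp (hq.dvd_of_dvd_pow hd))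
  have := Fermat.Agent.ES.J.CycloChar8.eq_one_of_sub_one_mem_nonunits hq hA hqN hη hη1
  exact hζ.dvd_of_pow_eq_one _ this

end K1b

/-! ### (K1c) -/

section K1c

variable (p : ℕ) [Fact p.Prime]

/-- An element of `Γ` fixing `x` fixes `ℚ(x)`. -/
theorem mem_fixingSubgroup_adjoin_simple {σ : Γ} {x : Qb} (h : σ x = x) :
    σ ∈ (IntermediateField.adjoin ℚ {x}).fixingSubgroup := by
  rw [IntermediateField.mem_fixingSubgroup_iff]
  intro y hy
  have := IntermediateField.adjoin_algHom_ext ℚ (s := {x})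
    (φ₁ := (σ : Qb →ₐ[ℚ] Qb).comp (IntermediateField.adjoin ℚ {x}).val)
    (φ₂ := (IntermediateField.adjoin ℚ {x}).val) (by
      intro t ht
      rw [Set.mem_singleton_iff] at ht
      subst ht
      exact h)
  exact congrArg (fun f => f ⟨y, hy⟩) this

/-- Inertia at `q ≠ p` fixes the `p`-power roots of unity. -/
theorem inertia_apply_rootOfUnity {q : ℕ} (hq : q.Prime) (hqp : q ≠ p)
    (A : ValuationSubring Qb) (hA : A.LiesOverPrime q) {g : Γ} (hg : g ∈ A.inertiaSubgroupIn ℚ)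
    {m : ℕ} {ζ : Qb} (hζ : ζ ^ p ^ m = 1) : g ζ = ζ := by
  have hp : p.Prime := Fact.out
  have hN0 : p ^ m ≠ 0 := pow_ne_zero _ hp.ne_zero
  have hζ0 : ζ ≠ 0 := by
    rintro rfl
    rw [zero_pow hN0] at hζ
    exact zero_ne_one hζ
  have hζA : ζ ∈ A := Fermat.Agent.ES.J.CycloChar8.mem_of_pow_eq_one hN0 hζ
  have hη : (g ζ * ζ⁻¹) ^ p ^ m = 1 := by
    rw [mul_pow, ← map_pow, hζ, map_one, inv_pow, hζ, inv_one, mul_one]
  have hη1 : g ζ * ζ⁻¹ - 1 ∈ A.nonunits := by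
    have e : g ζ * ζ⁻¹ - 1 = (g ζ - ζ) * ζ⁻¹ := by
      field_simp
    rw [e, ValuationSubring.mem_nonunits_iff (A := A), map_mul,
      Fermat.Agent.ES.J.CycloChar8.valuation_eq_one_of_pow_eq_one hN0 (η := ζ⁻¹)
        (by rw [inv_pow, hζ, inv_one]), mul_one]
    exact Fermat.Agent.S05.Inertia.valuation_sub_lt_one hg
      ((ValuationSubring.valuation_le_one_iff A ζ).mpr hζA)
  have hqN : ¬ q ∣ p ^ m := fun hd =>
    hqp ((Nat.prime_dvd_prime_iff_eq hq hp).mp (hq.dvd_of_dvd_pow hd))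
  have := Fermat.Agent.ES.J.CycloChar8.eq_one_of_sub_one_mem_nonunits hq hA hqN hη hη1
  field_simp at this
  exact this

/-- **(K1c)** `ℚ(μ_{p^(n+1)})`: finite over `ℚ`, unramified outside `p`, with fixing subgroup inside
`Cn p n`. -/
theorem exists_field_le_Cn (n : ℕ) :
    ∃ E : IntermediateField ℚ Qb, E.IsUnramifiedOutside {pPrime p} ∧
      E.fixingSubgroup ≤ Cn p n := by
  have hp : p.Prime := Fact.out
  have hN0 : p ^ (n + 1) ≠ 0 := pow_ne_zero _ hp.ne_zero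
  obtain ⟨ζ, hζ⟩ := Fermat.Agent.ES.J.CycloChar8.exists_primitiveRoot p (n + 1)
  have hζN : ζ ^ p ^ (n + 1) = 1 := hζ.pow_eq_one
  refine ⟨IntermediateField.adjoin ℚ {ζ}, ⟨?_, ?_⟩, ?_⟩
  · exact IntermediateField.adjoin.finiteDimensional (Algebra.IsIntegral.isIntegral ζ)
  · intro q hqS A hA g hg
    have hqp : (q : ℕ) ≠ p := by
      intro h
      apply hqS
      rw [Finset.mem_singleton]
      exact Subtype.ext h
    exact mem_fixingSubgroup_adjoin_simple
      (inertia_apply_rootOfUnity p q.2 hqp A hA hg hζN)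
  · intro σ hσ
    rw [mem_Cn_iff]
    intro t ht
    have hσζ : σ ζ = ζ := by
      rw [IntermediateField.mem_fixingSubgroup_iff] at hσ
      exact hσ ζ (IntermediateField.mem_adjoin_simple_self ℚ ζ)
    obtain ⟨i, _, rfl⟩ := hζ.eq_pow_of_pow_eq_one ht
    rw [map_pow, hσζ]

end K1c

end Fermat.Agent.TW.TWP59.KeyAux24
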