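/-
Programme TW (S56), brick G2-2 (helper24): places of `ℚ̄` over a prime `q` and conjugacy of Frobenius
elements.

* `exists_smul_eq` (TR)  : `Gal(ℚ̄/ℚ)` acts transitively on the valuation subrings of `ℚ̄` over `q`;
* `isFrobeniusAt_iff`    : `A.IsFrobeniusAt σ q ↔ σ ∈ D_A ∧ ∀ x ∈ A, σ x - x ^ q ∈ 𝔪_A`;
* `isFrobeniusAt_conj`   : `A.IsFrobeniusAt φ q → (γ • A).IsFrobeniusAt (γ φ γ⁻¹) q`;
* `mem_decompositionSubgroup_conj`, `mem_inertiaSubgroupIn_conj` (conjugation of `D_A`, `I_A`);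
* `mul_inv_mem_inertia`  : two Frobenius elements at `A` differ by an element of inertia;
* `frob_conj` (FC)       : for a monoid hom `f` trivial on all inertia groups at `q` and two Frobenius
  pairs `(A, φ)`, `(B, φ')` over `q` : `∃ γ, f φ' = f (γ φ γ⁻¹)`;
* `charpoly_frob_eq`, `good_of_good` : for `ρbar` unramified at `q`, all Frobenius elements over `q` have
  the same characteristic polynomial.
-/
import Mathlib
import Fermat.Agent.Lib.FrobeniusExists
import Fermat.Agent.PT.BR.UnramBridge13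
import Fermat.Prelude.Def_GaloisRep_Residual

set_option autoImplicit false

open scoped Pointwise
open Polynomial
open Fermat.Agent.Lib.FrobeniusExists

namespace Fermat.Agent.TW.TWP59.Places24

local notation "Γ" => (AlgebraicClosure ℚ ≃ₐ[ℚ] AlgebraicClosure ℚ)

/-! ### Centers on the ring of algebraic integers -/

theorem zbar_mem (V : ValuationSubring Qbar) (b : Zbar) : (b : Qbar) ∈ V :=
  mem_valuationSubring_of_isIntegral V b.2

/-- The center of `V` on `Zbar`. -/
noncomputable def center (V : ValuationSubring Qbar) : Ideal Zbar :=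
  Ideal.comap ((algebraMap Zbar Qbar).codRestrict V.toSubring (zbar_mem V))
    (IsLocalRing.maximalIdeal V)

theorem mem_center_iff (V : ValuationSubring Qbar) (b : Zbar) :
    b ∈ center V ↔ (b : Qbar) ∈ V.nonunits := by
  rw [center, Ideal.mem_comap, ← ValuationSubring.coe_mem_nonunits_iff]
  rfl

instance center_isPrime (V : ValuationSubring Qbar) : (center V).IsPrime :=
  Ideal.comap_isPrime _ _

theorem center_under (V : ValuationSubring Qbar) (q : ℕ) (hq : q.Prime) (hV : V.LiesOverPrime q) :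
    (center V).under ℤ = Ideal.span {(q : ℤ)} := by
  have hPmax : (Ideal.span {(q : ℤ)}).IsMaximal := by
    have : Fact q.Prime := ⟨hq⟩
    exact Int.ideal_span_isMaximal_of_prime q
  symm
  refine hPmax.eq_of_le (Ideal.IsPrime.under ℤ (center V)).ne_top ?_
  rw [Ideal.span_le]
  intro z hz
  rw [Set.mem_singleton_iff] at hz
  subst hz
  change algebraMap ℤ Zbar (q : ℤ) ∈ center V
  rw [mem_center_iff]
  have hV' : (q : Qbar) ∈ V.nonunits := hV
  simpa using hV'

/-- A valuation subring over `q` is the localisation of `Zbar` at its center. -/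
theorem mem_iff_exists (V : ValuationSubring Qbar) (q : ℕ) (hq : q.Prime) (hV : V.LiesOverPrime q)
    (x : Qbar) : x ∈ V ↔ ∃ b c : Zbar, b ∉ center V ∧ x * (b : Qbar) = (c : Qbar) := by
  constructor
  · intro hx
    obtain ⟨b, c, hb, hc, hbV, hxb⟩ := exists_num_den V q hq hV hx
    exact ⟨⟨b, hb⟩, ⟨c, hc⟩, fun h => hbV ((mem_center_iff V _).mp h), hxb⟩
  · rintro ⟨b, c, hb, hxb⟩
    have hbV : (b : Qbar) ∉ V.nonunits := fun h => hb ((mem_center_iff V b).mpr h)
    have hv1 : V.valuation (b : Qbar) = 1 :=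
      le_antisymm ((V.valuation_le_one_iff _).mpr (zbar_mem V b)) (not_lt.mp hbV)
    have hb0 : (b : Qbar) ≠ 0 := by
      intro h0
      rw [h0, map_zero] at hv1
      exact zero_ne_one hv1
    have hinv : (b : Qbar)⁻¹ ∈ V := by
      rw [← V.valuation_le_one_iff, map_inv₀, hv1, inv_one]
    have hx' : x = (c : Qbar) * (b : Qbar)⁻¹ := by
      rw [← hxb]
      field_simp
    rw [hx']
    exact mul_mem (zbar_mem V c) hinv

/-! ### Transitivity -/

section Profinite

attribute [local instance] isGalois_Qbar isIntegral_Qbar instTopZbar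

local instance : DiscreteTopology Zbar := ⟨rfl⟩

attribute [local instance] continuousSMul_Zbar isInvariant_Zbar

/-- **(TR)** `Gal(ℚ̄/ℚ)` acts transitively on the valuation subrings of `ℚ̄` over a prime `q`. -/
theorem exists_smul_eq (q : ℕ) (hq : q.Prime) (A B : ValuationSubring Qbar)
    (hA : A.LiesOverPrime q) (hB : B.LiesOverPrime q) : ∃ γ : Γ, γ • A = B := by
  obtain ⟨γ, hγ⟩ := Algebra.IsInvariant.exists_smul_of_under_eq_of_profinite (A := ℤ) (G := GQ)
    (center A) (center B) (by rw [center_under A q hq hA, center_under B q hq hB])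
  refine ⟨γ, ?_⟩
  -- it suffices to prove one inclusion for all pairs
  have key : ∀ (A B : ValuationSubring Qbar) (γ : GQ), A.LiesOverPrime q → B.LiesOverPrime q →
      center B = γ • center A → ∀ x ∈ A, γ x ∈ B := by
    intro A B γ hA hB hγ x hx
    obtain ⟨b, c, hb, hxb⟩ := (mem_iff_exists A q hq hA x).mp hx
    refine (mem_iff_exists B q hq hB (γ x)).mpr ⟨γ • b, γ • c, ?_, ?_⟩
    · rw [hγ, Ideal.smul_mem_pointwise_smul_iff]
      exact hb
    · change γ x * γ (b : Qbar) = γ (c : Qbar)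
      rw [← map_mul, hxb]
  apply SetLike.ext
  intro x
  rw [ValuationSubring.mem_pointwise_smul_iff_inv_smul_mem]
  constructor
  · intro h
    have := key A B γ hA hB hγ _ h
    rwa [AlgEquiv.smul_def, ← AlgEquiv.mul_apply, mul_inv_cancel, AlgEquiv.one_apply] at this
  · intro h
    have hγ' : center A = γ⁻¹ • center B := by
      rw [hγ, inv_smul_smul]
    exact key B A γ⁻¹ hB hA hγ' x h

end Profinite

/-! ### Decomposition groups, inertia groups and Frobenius elements under conjugation -/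

theorem mem_decompositionSubgroup_conj {A : ValuationSubring Qbar} {σ : Γ}
    (hσ : σ ∈ A.decompositionSubgroup ℚ) (γ : Γ) :
    γ * σ * γ⁻¹ ∈ (γ • A).decompositionSubgroup ℚ := by
  have h : σ • A = A := hσ
  change (γ * σ * γ⁻¹) • (γ • A) = γ • A
  rw [mul_smul, mul_smul, inv_smul_smul, h]

theorem mem_inertiaSubgroupIn_conj {A : ValuationSubring Qbar} {q : ℕ} (hq : q.Prime)
    (hA : A.LiesOverPrime q) {τ : Γ} (hτ : τ ∈ A.inertiaSubgroupIn ℚ) (γ : Γ) :
    γ * τ * γ⁻¹ ∈ (γ • A).inertiaSubgroupIn ℚ :=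
  Fermat.Agent.PT.BR.UnramBridge13.conj_mem_inertiaSubgroupIn hq hA γ hτ

/-- Concrete description of Frobenius elements. -/
theorem isFrobeniusAt_iff (A : ValuationSubring Qbar) (σ : Γ) (q : ℕ) :
    A.IsFrobeniusAt σ q ↔ σ ∈ A.decompositionSubgroup ℚ ∧
      ∀ x ∈ A, σ x - x ^ q ∈ A.nonunits := by
  constructor
  · rintro ⟨hσ, h⟩
    refine ⟨hσ, fun x hx => ?_⟩
    have h1 := h (IsLocalRing.residue A ⟨x, hx⟩)
    rw [← IsLocalRing.ResidueField.residue_smul, ← map_pow, ← sub_eq_zero, ← map_sub,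
      IsLocalRing.residue_eq_zero_iff, ← ValuationSubring.coe_mem_nonunits_iff] at h1
    exact h1
  · rintro ⟨hσ, h⟩
    refine ⟨hσ, fun xbar => ?_⟩
    obtain ⟨x, rfl⟩ := IsLocalRing.residue_surjective xbar
    rw [← IsLocalRing.ResidueField.residue_smul, ← map_pow, ← sub_eq_zero, ← map_sub,
      IsLocalRing.residue_eq_zero_iff, ← ValuationSubring.coe_mem_nonunits_iff]
    exact h x.1 x.2

/-- Conjugates of Frobenius elements are Frobenius elements at the translated place. -/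
theorem isFrobeniusAt_conj {A : ValuationSubring Qbar} {φ : Γ} {q : ℕ}
    (h : A.IsFrobeniusAt φ q) (γ : Γ) : (γ • A).IsFrobeniusAt (γ * φ * γ⁻¹) q := by
  rw [isFrobeniusAt_iff] at h ⊢
  refine ⟨mem_decompositionSubgroup_conj h.1 γ, fun x hx => ?_⟩
  rw [ValuationSubring.mem_pointwise_smul_iff_inv_smul_mem] at hx
  have h1 := h.2 _ hx
  rw [Fermat.Agent.PT.BR.UnramBridge13.mem_smul_nonunits_iff]
  have h2 : γ⁻¹ ((γ * φ * γ⁻¹) x - x ^ q) = φ (γ⁻¹ • x) - (γ⁻¹ • x) ^ q := by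
    rw [map_sub, map_pow, AlgEquiv.mul_apply, AlgEquiv.mul_apply, ← AlgEquiv.mul_apply γ⁻¹ γ,
      inv_mul_cancel, AlgEquiv.one_apply, AlgEquiv.smul_def]
  rw [h2]
  exact h1

/-- Two Frobenius elements at the same place differ by an element of the inertia group. -/
theorem mul_inv_mem_inertia {A : ValuationSubring Qbar} {σ0 σ : Γ} {q : ℕ}
    (hσ0 : A.IsFrobeniusAt σ0 q) (hσ : A.IsFrobeniusAt σ q) :
    σ * σ0⁻¹ ∈ A.inertiaSubgroupIn ℚ := by
  obtain ⟨h0, hx0⟩ := hσ0
  obtain ⟨h, hx⟩ := hσ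
  rw [ValuationSubring.inertiaSubgroupIn, Subgroup.mem_map]
  refine ⟨(⟨σ, h⟩ : A.decompositionSubgroup ℚ) * (⟨σ0, h0⟩ : A.decompositionSubgroup ℚ)⁻¹, ?_, rfl⟩
  rw [ValuationSubring.inertiaSubgroup, MonoidHom.mem_ker]
  ext x
  have : (⟨σ, h⟩ : A.decompositionSubgroup ℚ) • (⟨σ0, h0⟩ : A.decompositionSubgroup ℚ)⁻¹ • x
      = x := by
    rw [hx, ← hx0, smul_inv_smul]
  simpa using this

/-! ### Conjugacy of Frobenius elements modulo inertia -/

/-- **(FC)**, generic form. -/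
theorem frob_conj {M : Type*} [Monoid M] (f : Γ →* M) (q : ℕ) (hq : q.Prime)
    (hf : ∀ A : ValuationSubring Qbar, A.LiesOverPrime q → ∀ σ ∈ A.inertiaSubgroupIn ℚ, f σ = 1)
    {A B : ValuationSubring Qbar} (hA : A.LiesOverPrime q) (hB : B.LiesOverPrime q)
    {φ φ' : Γ} (hφ : A.IsFrobeniusAt φ q) (hφ' : B.IsFrobeniusAt φ' q) :
    ∃ γ : Γ, f φ' = f (γ * φ * γ⁻¹) := by
  obtain ⟨γ, hγ⟩ := exists_smul_eq q hq A B hA hB
  refine ⟨γ, ?_⟩
  have h1 : B.IsFrobeniusAt (γ * φ * γ⁻¹) q := hγ ▸ isFrobeniusAt_conj hφ γ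
  have h2 := hf B hB _ (mul_inv_mem_inertia h1 hφ')
  have h3 : φ' = (φ' * (γ * φ * γ⁻¹)⁻¹) * (γ * φ * γ⁻¹) := by group
  conv_lhs => rw [h3, map_mul, h2, one_mul]

/-- All Frobenius elements over an unramified prime have the same characteristic polynomial. -/
theorem charpoly_frob_eq {k : Type} [Field k] (ρbar : ResidualGaloisRep k) (q : ℕ) (hq : q.Prime)
    (hur : ρbar.IsUnramifiedAt q)
    {A B : ValuationSubring Qbar} (hA : A.LiesOverPrime q) (hB : B.LiesOverPrime q)
    {φ φ' : Γ} (hφ : A.IsFrobeniusAt φ q) (hφ' : B.IsFrobeniusAt φ' q) :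
    LinearMap.charpoly (ρbar.ρ φ') = LinearMap.charpoly (ρbar.ρ φ) := by
  obtain ⟨γ, hγ⟩ := frob_conj ρbar.ρ q hq hur hA hB hφ hφ'
  rw [hγ, map_mul, map_mul]
  -- conjugation by the unit `ρbar.ρ γ`
  have hinv1 : ρbar.ρ γ * ρbar.ρ γ⁻¹ = 1 := by rw [← map_mul, mul_inv_cancel, map_one]
  have hinv2 : ρbar.ρ γ⁻¹ * ρbar.ρ γ = 1 := by rw [← map_mul, inv_mul_cancel, map_one]
  let e : ρbar.V ≃ₗ[k] ρbar.V :=
    { ρbar.ρ γ with
      invFun := ρbar.ρ γ⁻¹
      left_inv := fun v => by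
        change (ρbar.ρ γ⁻¹ * ρbar.ρ γ) v = v
        rw [hinv2, Module.End.one_apply]
      right_inv := fun v => by
        change (ρbar.ρ γ * ρbar.ρ γ⁻¹) v = v
        rw [hinv1, Module.End.one_apply] }
  have : ρbar.ρ γ * ρbar.ρ φ * ρbar.ρ γ⁻¹ = e.conj (ρbar.ρ φ) := by
    ext v
    rfl
  rw [this, LinearEquiv.charpoly_conj]

/-- The clause "all Frobenius pairs over `q` have distinct eigenvalues in `k`" follows from ONE pair
(for `ρbar` unramified at `q`). -/
theorem distinct_eigen_of_frob {k : Type} [Field k] (ρbar : ResidualGaloisRep k) (q : ℕ)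
    (hq : q.Prime) (hur : ρbar.IsUnramifiedAt q)
    {A B : ValuationSubring Qbar} (hA : A.LiesOverPrime q) (hB : B.LiesOverPrime q)
    {φ φ' : Γ} (hφ : A.IsFrobeniusAt φ q) (hφ' : B.IsFrobeniusAt φ' q)
    (h : ∃ α β : k, α ≠ β ∧ LinearMap.charpoly (ρbar.ρ φ) = (X - C α) * (X - C β)) :
    ∃ α β : k, α ≠ β ∧ LinearMap.charpoly (ρbar.ρ φ') = (X - C α) * (X - C β) := by
  obtain ⟨α, β, hne, hc⟩ := h
  exact ⟨α, β, hne, by rw [charpoly_frob_eq ρbar q hq hur hA hB hφ hφ', hc]⟩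


end Fermat.Agent.TW.TWP59.Places24
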