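/-
Programme TW (S56), sub-programme G2 (architect helper59), leaf (FIN)  (helper9).

`finite_H1g` : for `S ∋ p` and `M` good for `S` (finite-dimensional, smooth, unramified outside
`S`), the level cohomology group `H¹(G_S, M)` (`GWIface97.H1g S M`) is finite-dimensional over
`𝔽_p`; also `finite_H1g_dual` for the Tate dual `M^∨(1)`.

Inputs (all from the S55 library): `PT/PRO/FinH1S55_9.exists_F0` (a trivialising field containing
`ζ_p`, unramified outside `S`), `PT/GLOB/H1FiniteCoh15.finiteDimensional_continuousH1S` (Kummer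
theory + Hermite–Minkowski), and the identification `PT/BR/LevelBridge13.H1Equiv`.
-/
import Mathlib
import Fermat.Agent.TW.GWIface97
import Fermat.Agent.PT.PRO.FinH1S55_9

set_option autoImplicit false

open ExtCitation
open Fermat.Agent.PT.PRO Fermat.Agent.PT.BR Fermat.Agent.PT.BR.LevelBridge13
open Fermat.Agent.TW.GWIface97

namespace Fermat.Agent.TW.TWP59.FinH1g9

local notation "Qbar" => AlgebraicClosure ℚ
local notation "Γ" => (AlgebraicClosure ℚ ≃ₐ[ℚ] AlgebraicClosure ℚ)

variable {p : ℕ} [Fact p.Prime]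

/-- **(FIN)** `H¹(G_S, M)` is finite-dimensional for `S ∋ p` and `M` good for `S`. -/
theorem finite_H1g (S : Finset Nat.Primes) (hpS : pPrime p ∈ S) (M : Rep.{0} (ZMod p) Γ)
    (hM : IsGood S M) : Module.Finite (ZMod p) (H1g S M) := by
  have hMfin : FiniteDimensional (ZMod p) M := hM.fin
  obtain ⟨F₀, hF₀, hζ, h1, -⟩ := FinH1S55_9.exists_F0 S hpS M hM.smooth hM.unram
  have hF₀fin : FiniteDimensional ℚ F₀ := hF₀.1
  have hfin : FiniteDimensional (ZMod p) (groupCohomology.continuousH1S S M) :=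
    Fermat.Agent.PT.GLOB.H1FiniteCoh15.finiteDimensional_continuousH1S S M F₀ hF₀
      (Fermat.Agent.S14.Fields.zeta_spec p) hζ (fun s hs a => by rw [h1 s hs]; rfl)
  exact Module.Finite.equiv (H1Equiv S M).symm

/-- `H¹(G_S, M)` is a finite set. -/
theorem finite_H1g' (S : Finset Nat.Primes) (hpS : pPrime p ∈ S) (M : Rep.{0} (ZMod p) Γ)
    (hM : IsGood S M) : Finite (H1g S M) := by
  have := finite_H1g S hpS M hM
  exact Module.finite_of_finite (ZMod p)

/-- **(FIN) for the Tate dual**: `H¹(G_S, M^∨(1))` is finite-dimensional. -/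
theorem finite_H1g_dual (S : Finset Nat.Primes) (hpS : pPrime p ∈ S) (M : Rep.{0} (ZMod p) Γ)
    (hM : IsGood S M) : Module.Finite (ZMod p) (H1g S (dual M)) := by
  have hMfin : FiniteDimensional (ZMod p) M := hM.fin
  obtain ⟨F₀, hF₀, hζ, -, h2⟩ := FinH1S55_9.exists_F0 S hpS M hM.smooth hM.unram
  have hF₀fin : FiniteDimensional ℚ F₀ := hF₀.1
  have hdfin : FiniteDimensional (ZMod p) (M.dualTwist (cycloChar p)) :=
    inferInstanceAs (FiniteDimensional (ZMod p) (Module.Dual (ZMod p) M))
  have hfin : FiniteDimensional (ZMod p)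
      (groupCohomology.continuousH1S S (M.dualTwist (cycloChar p))) :=
    Fermat.Agent.PT.GLOB.H1FiniteCoh15.finiteDimensional_continuousH1S S
      (M.dualTwist (cycloChar p)) F₀ hF₀
      (Fermat.Agent.S14.Fields.zeta_spec p) hζ (fun s hs a => by rw [h2 s hs]; rfl)
  exact Module.Finite.equiv (H1Equiv S (M.dualTwist (cycloChar p))).symm

end Fermat.Agent.TW.TWP59.FinH1g9
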