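/-
Programme TW (S56), brick G2-5 (helper21 for helper59): the induction on the dimension of the dual
Selmer group, in abstract form.

`F` a field, `H` an `F`-vector space, `X ≤ H` a finite dimensional subspace, `ι` a type of "primes",
`Adm : ι → Prop` the admissible ones, `K i ≤ H` the kernel of the restriction map at `i`.
Hypothesis (= conclusion of the key-prime step G2-4): for every `x : H` and every finite set `T` of
primes to avoid there is an admissible `i ∉ T` such that `x ≠ 0 → x ∉ K i`.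
Conclusion: for every `r ≥ dim X` and every finite `T₀` there is an injective family
`qv : Fin r → ι` of admissible primes outside `T₀` with `X ⊓ ⨅ j, K (qv j) = ⊥`.
Mathlib only.
-/
import Mathlib

namespace Fermat.Agent.TW.TWP59.Induct21

variable {F : Type*} [Field F] {H : Type*} [AddCommGroup H] [Module F H] {ι : Type*}

theorem exists_family_aux (Adm : ι → Prop) (K : ι → Submodule F H)
    (hkey : ∀ (x : H) (T : Finset ι), ∃ i, i ∉ T ∧ Adm i ∧ (x ≠ 0 → x ∉ K i)) :
    ∀ (r : ℕ) (X : Submodule F H) [FiniteDimensional F X], Module.finrank F X ≤ r →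
      ∀ T₀ : Finset ι, ∃ qv : Fin r → ι, Function.Injective qv ∧ (∀ j, qv j ∉ T₀) ∧
        (∀ j, Adm (qv j)) ∧ X ⊓ ⨅ j, K (qv j) = ⊥ := by
  classical
  intro r
  induction r with
  | zero =>
    intro X _ hX T₀
    refine ⟨Fin.elim0, fun a => a.elim0, fun j => j.elim0, fun j => j.elim0, ?_⟩
    have hX0 : X = ⊥ := by
      rw [← Submodule.finrank_eq_zero]
      omega
    rw [hX0, bot_inf_eq]
  | succ r ih =>
    intro X _ hX T₀
    -- choose the first prime
    obtain ⟨i, hiT, hiA, X', hX'fin, hX'r, hX'eq⟩ :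
        ∃ i, i ∉ T₀ ∧ Adm i ∧ ∃ X' : Submodule F H, ∃ _ : FiniteDimensional F X',
          Module.finrank F X' ≤ r ∧ X' = X ⊓ K i := by
      by_cases hX0 : X = ⊥
      · obtain ⟨i, hiT, hiA, -⟩ := hkey 0 T₀
        refine ⟨i, hiT, hiA, X ⊓ K i, ?_, ?_, rfl⟩
        · rw [hX0, bot_inf_eq]
          infer_instance
        · rw [hX0, bot_inf_eq, finrank_bot]
          omega
      · obtain ⟨x, hxX, hx0⟩ := (Submodule.ne_bot_iff X).1 hX0
        obtain ⟨i, hiT, hiA, hxi⟩ := hkey x T₀
        have hlt : X ⊓ K i < X := by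
          refine lt_of_le_of_ne inf_le_left ?_
          intro heq
          have : x ∈ X ⊓ K i := by rw [heq]; exact hxX
          exact hxi hx0 (Submodule.mem_inf.1 this).2
        have hfin : FiniteDimensional F ↥(X ⊓ K i) :=
          Submodule.finiteDimensional_of_le inf_le_left
        refine ⟨i, hiT, hiA, X ⊓ K i, hfin, ?_, rfl⟩
        have := Submodule.finrank_lt_finrank_of_lt hlt
        omega
    obtain ⟨qv', hinj, hav, hadm, hbot⟩ := ih X' hX'r (insert i T₀)
    refine ⟨Fin.cons i qv', ?_, ?_, ?_, ?_⟩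
    · rw [Fin.cons_injective_iff]
      refine ⟨?_, hinj⟩
      rintro ⟨j, hj⟩
      exact hav j (by rw [hj]; exact Finset.mem_insert_self _ _)
    · intro j
      refine Fin.cases ?_ (fun j' => ?_) j
      · simpa using hiT
      · rw [Fin.cons_succ]
        exact fun h => hav j' (Finset.mem_insert_of_mem h)
    · intro j
      refine Fin.cases ?_ (fun j' => ?_) j
      · simpa using hiA
      · rw [Fin.cons_succ]
        exact hadm j'
    · rw [eq_bot_iff]
      intro x hx
      rw [← hbot, hX'eq]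
      obtain ⟨hxX, hxK⟩ := Submodule.mem_inf.1 hx
      rw [Submodule.mem_iInf] at hxK
      refine Submodule.mem_inf.2 ⟨Submodule.mem_inf.2 ⟨hxX, ?_⟩, ?_⟩
      · have := hxK 0
        simpa using this
      · rw [Submodule.mem_iInf]
        intro j
        have := hxK j.succ
        rwa [Fin.cons_succ] at this

/-- **Induction on the dimension** (submodule form). -/
theorem exists_family (Adm : ι → Prop) (K : ι → Submodule F H)
    (hkey : ∀ (x : H) (T : Finset ι), ∃ i, i ∉ T ∧ Adm i ∧ (x ≠ 0 → x ∉ K i))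
    (X : Submodule F H) [FiniteDimensional F X] (T₀ : Finset ι) :
    ∃ qv : Fin (Module.finrank F X) → ι, Function.Injective qv ∧ (∀ j, qv j ∉ T₀) ∧
      (∀ j, Adm (qv j)) ∧ X ⊓ ⨅ j, K (qv j) = ⊥ :=
  exists_family_aux Adm K hkey _ X le_rfl T₀

/-- **Induction on the dimension** (restriction maps form): every `x ∈ X` with `res (qv j) x = 0` for
all `j` is zero. -/
theorem exists_family_res (Adm : ι → Prop) {W : ι → Type*} [∀ i, AddCommGroup (W i)]
    [∀ i, Module F (W i)] (res : ∀ i, H →ₗ[F] W i)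
    (hkey : ∀ (x : H) (T : Finset ι), ∃ i, i ∉ T ∧ Adm i ∧ (x ≠ 0 → res i x ≠ 0))
    (X : Submodule F H) [FiniteDimensional F X] (r : ℕ) (hr : Module.finrank F X ≤ r)
    (T₀ : Finset ι) :
    ∃ qv : Fin r → ι, Function.Injective qv ∧ (∀ j, qv j ∉ T₀) ∧ (∀ j, Adm (qv j)) ∧
      ∀ x ∈ X, (∀ j, res (qv j) x = 0) → x = 0 := by
  obtain ⟨qv, h1, h2, h3, h4⟩ := exists_family_aux Adm (fun i => LinearMap.ker (res i))
    (fun x T => by
      obtain ⟨i, hi1, hi2, hi3⟩ := hkey x T
      exact ⟨i, hi1, hi2, fun hx hmem => hi3 hx (LinearMap.mem_ker.1 hmem)⟩) r X hr T₀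
  refine ⟨qv, h1, h2, h3, fun x hxX hx => ?_⟩
  have : x ∈ X ⊓ ⨅ j, LinearMap.ker (res (qv j)) := by
    refine Submodule.mem_inf.2 ⟨hxX, ?_⟩
    rw [Submodule.mem_iInf]
    exact fun j => LinearMap.mem_ker.2 (hx j)
  rw [h4] at this
  exact (Submodule.mem_bot F).1 this

end Fermat.Agent.TW.TWP59.Induct21
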