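/-
Programme TW (S56), brick G2-3 (helper21 for helper59): INFLATION `S₀ → T`.

For `S₀ ⊆ T` and a coefficient module `N` good for `S₀` (unramified outside `S₀`):
* `infl : H1g S₀ N →ₗ H1g T N` (identity on cocycles), `res1_infl`;
* `exists_infl` : a class `y : H1g T N` whose restrictions at all `q ∈ T \ S₀` vanish is inflated
  from `H1g S₀ N`;
* `sel_extBot_eq_bot` : the corollary in the vocabulary of `SDefs72`.

Hypotheses taken from the local–global bridge (proved elsewhere: `LocGlob59`, `Places24`, `LocTW9`):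
`LG` (finite-level surjectivity of `primeLocalToGlobal q` onto the decomposition group of
`primeLocalPlace q`), `TR` (transitivity of `Γ` on the places over `q`).  `LO` (`primeLocalPlace q`
lies over `q`) is proved here (`lo`).
-/
import Fermat.Agent.TW.SDefs72

set_option autoImplicit false

open ExtCitation groupCohomology
open scoped Pointwise
open Fermat.Agent.PT.PRO Fermat.Agent.PT.BR Fermat.Agent.PT.BR.LevelBridge13
open Fermat.Agent.TW.GWIface97 Fermat.Agent.TW.SDefs72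

namespace Fermat.Agent.TW.TWP59.Inflate21

local notation "Qbar" => AlgebraicClosure ℚ
local notation "Γ" => (AlgebraicClosure ℚ ≃ₐ[ℚ] AlgebraicClosure ℚ)

local instance isAlgClosureQbarInfl21 : IsAlgClosure ℚ Qbar := ⟨inferInstance, inferInstance⟩
local instance isGaloisQbarInfl21 : IsGalois ℚ Qbar := IsAlgClosure.isGalois ℚ Qbar

/-- **(LG)** finite-level surjectivity of the local Galois group onto the decomposition group. -/
def LG : Prop :=
  ∀ (q : Nat.Primes) (L : IntermediateField ℚ Qbar), FiniteDimensional ℚ L → ∀ σ : Γ,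
    σ ∈ (primeLocalPlace q).decompositionSubgroup ℚ →
      ∃ g : primeLocalGaloisGroup q, ∀ x ∈ L, primeLocalToGlobal q g x = σ x

/-- **(TR)** `Γ` acts transitively on the places over `q`. -/
def TR : Prop :=
  ∀ q : ℕ, q.Prime → ∀ A B : ValuationSubring Qbar, A.LiesOverPrime q → B.LiesOverPrime q →
    ∃ γ : Γ, γ • A = B

/-- **(LO)** the canonical place lies over `q`. -/
def LO : Prop := ∀ q : Nat.Primes, (primeLocalPlace q).LiesOverPrime (q : ℕ)

open scoped NNReal in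
/-- `LO` holds (same proof as `LocTW9.padicPlace_liesOverPrime`, repeated here to keep the import
closure small). -/
theorem lo : LO := by
  intro q
  have : Fact (q : ℕ).Prime := ⟨q.2⟩
  have hq : (q : ℕ).Prime := q.2
  show (((q : ℕ) : ℕ) : AlgebraicClosure ℚ) ∈ (padicPlace (q : ℕ)).nonunits
  rw [ValuationSubring.mem_nonunits_iff_or]
  right
  rw [mem_padicPlace_iff, map_inv₀, map_natCast, nnnorm_inv, not_le]
  have h1 : ‖(((q : ℕ) : ℕ) : PadicAlgCl (q : ℕ))‖₊ = 1 / ((q : ℕ) : ℝ≥0) := by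
    have := PadicAlgCl.valuation_p (q : ℕ)
    rwa [PadicAlgCl.valuation_def] at this
  rw [h1, one_div, inv_inv]
  exact_mod_cast hq.one_lt

/-! ### An abstract lemma: the normal subgroup on which a cocycle and the action are trivial -/

section Abstract

variable {G : Type*} [Group G] {R : Type*} [CommRing R] {A : Type*} [AddCommGroup A] [Module R A]

theorem coc_one {ρ : G →* (A →ₗ[R] A)} {c : G → A}
    (hc : ∀ g h, c (g * h) = ρ g (c h) + c g) : c 1 = 0 := by
  have h := hc 1 1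
  rw [mul_one, map_one, Module.End.one_apply] at h
  exact left_eq_add.1 h

theorem rho_inv_eq_one {ρ : G →* (A →ₗ[R] A)} {x : G} (hx : ρ x = 1) : ρ x⁻¹ = 1 := by
  have h := map_mul ρ x⁻¹ x
  rw [inv_mul_cancel, map_one, hx, mul_one] at h
  exact h.symm

/-- `{x | ρ x = 1 ∧ c x = 0}` -/
def trivSub (ρ : G →* (A →ₗ[R] A)) (c : G → A)
    (hc : ∀ g h, c (g * h) = ρ g (c h) + c g) : Subgroup G where
  carrier := {x | ρ x = 1 ∧ c x = 0}
  one_mem' := ⟨map_one ρ, coc_one hc⟩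
  mul_mem' := by
    rintro x y ⟨hx1, hx2⟩ ⟨hy1, hy2⟩
    exact ⟨by rw [map_mul, hx1, hy1, one_mul], by rw [hc, hy2, map_zero, hx2, add_zero]⟩
  inv_mem' := by
    rintro x ⟨hx1, hx2⟩
    have h1 : ρ x⁻¹ = 1 := rho_inv_eq_one hx1
    refine ⟨h1, ?_⟩
    have h := hc x⁻¹ x
    rw [inv_mul_cancel, coc_one hc, hx2, map_zero, zero_add] at h
    exact h.symm

theorem mem_trivSub {ρ : G →* (A →ₗ[R] A)} {c : G → A}
    (hc : ∀ g h, c (g * h) = ρ g (c h) + c g) (x : G) :
    x ∈ trivSub ρ c hc ↔ ρ x = 1 ∧ c x = 0 := Iff.rfl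

theorem trivSub_conj {ρ : G →* (A →ₗ[R] A)} {c : G → A}
    (hc : ∀ g h, c (g * h) = ρ g (c h) + c g) (g x : G) (hx : x ∈ trivSub ρ c hc) :
    g * x * g⁻¹ ∈ trivSub ρ c hc := by
  obtain ⟨hx1, hx2⟩ := hx
  refine ⟨by rw [map_mul, map_mul, hx1, mul_one, ← map_mul, mul_inv_cancel, map_one], ?_⟩
  have h1 : ρ g (c g⁻¹) + c g = 0 := by
    have h := hc g g⁻¹
    rw [mul_inv_cancel, coc_one hc] at h
    exact h.symm
  rw [hc (g * x) g⁻¹, hc g x, hx2, map_zero, zero_add, map_mul, hx1, mul_one]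
  exact h1

theorem trivSub_right_inv {ρ : G →* (A →ₗ[R] A)} {c : G → A}
    (hc : ∀ g h, c (g * h) = ρ g (c h) + c g) (g x : G) (hx : x ∈ trivSub ρ c hc) :
    c (g * x) = c g := by
  rw [hc, hx.2, map_zero, zero_add]

end Abstract

variable {p : ℕ} [Fact p.Prime]

/-! ### Inflation -/

theorem isLevelHom_mono {S₀ T : Finset Nat.Primes} (hST : S₀ ⊆ T) :
    LevelCohRes28.IsLevelHom (MonoidHom.id Γ) (globalSets T) (globalSets S₀) := by
  rintro _ ⟨F, hF, rfl⟩
  exact ⟨_, ⟨F, hF.mono hST, rfl⟩, le_of_eq (Subgroup.comap_id _).symm⟩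

/-- Inflation `H¹(G_{S₀}, N) → H¹(G_T, N)`: the identity on cocycles. -/
noncomputable def infl (S₀ T : Finset Nat.Primes) (hST : S₀ ⊆ T) (N : Rep.{0} (ZMod p) Γ) :
    H1g S₀ N →ₗ[ZMod p] H1g T N :=
  LevelCohRes28.ppH1 (𝓑G := globalBasis T) (𝓑H := globalBasis S₀) (MonoidHom.id Γ)
    (LinearMap.id : N →ₗ[ZMod p] N) (fun _ _ => rfl) (isLevelHom_mono hST)

theorem infl_mk (S₀ T : Finset Nat.Primes) (hST : S₀ ⊆ T) (N : Rep.{0} (ZMod p) Γ)
    (c : ↥(LevelCoh28.Z1 (globalBasis S₀) N)) :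
    infl S₀ T hST N (LevelCoh28.H1mk (globalBasis S₀) N c) =
      LevelCoh28.H1mk (globalBasis T) N
        (LevelCohRes28.ppZ1 (𝓑G := globalBasis T) (𝓑H := globalBasis S₀) (MonoidHom.id Γ)
          (LinearMap.id : N →ₗ[ZMod p] N) (fun _ _ => rfl) (isLevelHom_mono hST) c) := rfl

/-- Restriction commutes with inflation. -/
theorem res1_infl (S₀ T : Finset Nat.Primes) (hST : S₀ ⊆ T) (q : Nat.Primes)
    (N : Rep.{0} (ZMod p) Γ) (x : H1g S₀ N) :
    res1 T q N (infl S₀ T hST N x) = res1 S₀ q N x := by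
  obtain ⟨c, rfl⟩ := LevelCoh28.H1mk_surjective _ _ x
  rfl

/-! ### The descent -/

/-- A class in `H¹(G_T, N)` which is locally trivial at all primes of `T \ S₀` comes from
`H¹(G_{S₀}, N)`. -/
theorem exists_infl (hLG : LG) (hTR : TR) (S₀ T : Finset Nat.Primes) (hST : S₀ ⊆ T)
    (N : Rep.{0} (ZMod p) Γ) (hN : IsGood S₀ N) (y : H1g T N)
    (hy : ∀ q ∈ T, q ∉ S₀ → res1 T q N y = 0) : ∃ x, infl S₀ T hST N x = y := by
  obtain ⟨c, rfl⟩ := LevelCoh28.H1mk_surjective _ _ y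
  have hcoc : ∀ g h : Γ, (c : Γ → N) (g * h) = N.ρ g ((c : Γ → N) h) + (c : Γ → N) g :=
    (mem_cocycles₁_iff (c : Γ → N)).1 c.2.1
  obtain ⟨_, ⟨F, hF, rfl⟩, hFc⟩ := c.2.2
  have hFfin : FiniteDimensional ℚ F := hF.1
  -- a field trivialising `N`, unramified outside `S₀`
  have hNfin : FiniteDimensional (ZMod p) N := hN.fin
  obtain ⟨L₀, hL₀S, hL₀G, hL₀⟩ :=
    exists_isUnramifiedOutside_forall_ρ_eq_one S₀ N hN.smooth hN.unram
  have hL₀fin : FiniteDimensional ℚ L₀ := hL₀S.1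
  have hL'fin : FiniteDimensional ℚ ↥(L₀ ⊔ F) := IntermediateField.finiteDimensional_sup L₀ F
  set K : Subgroup Γ := trivSub N.ρ (c : Γ → N) hcoc with hK
  -- `K` contains the fixing subgroup of `L₀ ⊔ F`
  have hL'K : (L₀ ⊔ F).fixingSubgroup ≤ K := by
    intro s hs
    rw [IntermediateField.fixingSubgroup_sup] at hs
    refine ⟨hL₀ s hs.1, ?_⟩
    have := hFc 1 s hs.2
    rwa [one_mul, coc_one hcoc] at this
  -- step 1: inertia at the canonical place over `q ∈ T \ S₀`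
  have step1 : ∀ q ∈ T, q ∉ S₀ → ∀ x' ∈ (primeLocalPlace q).inertiaSubgroupIn ℚ, x' ∈ K := by
    intro q hqT hqS x' hx'
    have hρx' : N.ρ x' = 1 := hN.unram q hqS _ (lo q) x' hx'
    refine ⟨hρx', ?_⟩
    have hdec : x' ∈ (primeLocalPlace q).decompositionSubgroup ℚ := by
      obtain ⟨y, -, rfl⟩ := hx'
      exact y.2
    obtain ⟨g, hg⟩ := hLG q (L₀ ⊔ F) hL'fin x' hdec
    set ιg : Γ := primeLocalToGlobal q g with hιg
    have hs : ιg⁻¹ * x' ∈ (L₀ ⊔ F).fixingSubgroup := by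
      rw [IntermediateField.mem_fixingSubgroup_iff]
      intro z hz
      rw [AlgEquiv.mul_apply, ← hg z hz, ← AlgEquiv.mul_apply, inv_mul_cancel, AlgEquiv.one_apply]
    have hsK := hL'K hs
    have hx'eq : x' = ιg * (ιg⁻¹ * x') := by group
    have hρι : N.ρ ιg = 1 := by
      have h1 : ιg = x' * (ιg⁻¹ * x')⁻¹ := by group
      have h2 : N.ρ (ιg⁻¹ * x')⁻¹ = 1 := rho_inv_eq_one hsK.1
      rw [h1, map_mul, hρx', h2, one_mul]
    -- the local class is trivial
    have hloc := hy q hqT hqS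
    rw [res1, ShaBridge13.resH1_mk, LevelCoh28.H1mk_eq_zero_iff] at hloc
    obtain ⟨n, hn⟩ := hloc
    have hn' := congrFun hn g
    rw [d₀₁_hom_apply] at hn'
    have hcg : (c : Γ → N) ιg = 0 := by
      have h3 : (c : Γ → N) ιg = (Rep.res (primeLocalToGlobal q) N).ρ g n - n := hn'.symm
      rw [h3]
      show N.ρ ιg n - n = 0
      rw [hρι, Module.End.one_apply, sub_self]
    rw [hx'eq, trivSub_right_inv hcoc _ _ hsK, hcg]
  -- step 2: all inertia groups outside `S₀` lie in `K`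
  have step2 : ∀ q : Nat.Primes, q ∉ S₀ → ∀ A : ValuationSubring Qbar, A.LiesOverPrime (q : ℕ) →
      A.inertiaSubgroupIn ℚ ≤ K := by
    intro q hqS A hA x hx
    by_cases hqT : q ∈ T
    · obtain ⟨γ, hγ⟩ := hTR q q.2 (primeLocalPlace q) A (lo q) hA
      have h1 := UnramBridge13.conj_mem_inertiaSubgroupIn q.2 hA γ⁻¹ hx
      rw [← hγ, inv_smul_smul, inv_inv] at h1
      have h2 := trivSub_conj hcoc γ _ (step1 q hqT hqS _ h1)
      have h3 : γ * (γ⁻¹ * x * γ) * γ⁻¹ = x := by group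
      rwa [h3] at h2
    · refine ⟨hN.unram q hqS A hA x hx, ?_⟩
      have hxF : x ∈ F.fixingSubgroup := hF.2 q hqT A hA hx
      have := hFc 1 x hxF
      rwa [one_mul, coc_one hcoc] at this
  -- `K` is open, hence closed
  have hKopen : IsOpen (K : Set Γ) := Subgroup.isOpen_mono hL'K (L₀ ⊔ F).fixingSubgroup_isOpen
  have hKclosed : IsClosed (K : Set Γ) := Subgroup.isClosed_of_isOpen K hKopen
  have hfix : (IntermediateField.fixedField K).fixingSubgroup = K :=
    InfiniteGalois.fixingSubgroup_fixedField (⟨K, hKclosed⟩ : ClosedSubgroup Γ)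
  have hle : IntermediateField.fixedField K ≤ L₀ ⊔ F := by
    have h1 := IntermediateField.fixedField_antitone hL'K
    rwa [InfiniteGalois.fixedField_fixingSubgroup] at h1
  have hF' : (IntermediateField.fixedField K).IsUnramifiedOutside S₀ := by
    refine ⟨?_, fun q hq A hA => ?_⟩
    · exact FiniteDimensional.of_injective (IntermediateField.inclusion hle).toLinearMap
        (IntermediateField.inclusion_injective hle)
    · rw [hfix]
      exact step2 q hq A hA
  -- `c` is a level cocycle for `S₀`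
  have hcZ : (c : Γ → N) ∈ LevelCoh28.Z1 (globalBasis S₀) N := by
    refine ⟨c.2.1, _, ⟨IntermediateField.fixedField K, hF', rfl⟩, fun g s hs => ?_⟩
    rw [hfix] at hs
    exact trivSub_right_inv hcoc g s hs
  refine ⟨LevelCoh28.H1mk (globalBasis S₀) N ⟨(c : Γ → N), hcZ⟩, ?_⟩
  rw [infl_mk]
  congr 1

/-! ### The corollary in the vocabulary of `SDefs72` -/

theorem sel_extBot_eq_bot (hLG : LG) (hTR : TR) (S₀ T : Finset Nat.Primes)
    (hST : S₀ ⊆ T) (N : Rep.{0} (ZMod p) Γ) (hN : IsGood S₀ N)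
    (Ld : ∀ v : ↥S₀, Submodule (ZMod p) (H1l v.1 N))
    (h0 : ∀ x ∈ Sel S₀ N Ld, (∀ q ∈ T, q ∉ S₀ → res1 S₀ q N x = 0) → x = 0) :
    Sel T N (extBot S₀ T N Ld) = ⊥ := by
  rw [eq_bot_iff]
  intro y hy
  rw [mem_Sel_iff] at hy
  have hy0 : ∀ q ∈ T, q ∉ S₀ → res1 T q N y = 0 := by
    intro q hqT hqS
    have := hy ⟨q, hqT⟩
    rw [extBot_of_not_mem S₀ T N Ld ⟨q, hqT⟩ hqS] at this
    exact (Submodule.mem_bot _).1 this
  obtain ⟨x, rfl⟩ := exists_infl hLG hTR S₀ T hST N hN y hy0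
  have hx : x = 0 := by
    apply h0
    · rw [mem_Sel_iff]
      intro v
      have := hy ⟨v.1, hST v.2⟩
      rw [extBot_of_mem S₀ T N Ld ⟨v.1, hST v.2⟩ v.2, res1_infl] at this
      exact this
    · intro q hqT hqS
      rw [← res1_infl S₀ T hST q N x]
      exact hy0 q hqT hqS
  rw [hx, map_zero]
  exact Submodule.zero_mem _

end Fermat.Agent.TW.TWP59.Inflate21
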