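/-
Programme TW (S56), brick G2-3 (helper21): bridge between `Inflate21.infl` and helper97's
`GWIface2_97.infl1` (the official inflation map of the programme); the results of `Inflate21`
restated for `infl1`.
-/
import Fermat.Agent.TW.TWP59.Inflate21
import Fermat.Agent.TW.GWIface2_97

set_option autoImplicit false

open ExtCitation groupCohomology
open Fermat.Agent.PT.PRO Fermat.Agent.PT.BR Fermat.Agent.PT.BR.LevelBridge13
open Fermat.Agent.TW.GWIface97 Fermat.Agent.TW.GWIface2_97 Fermat.Agent.TW.TWP59.Inflate21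

namespace Fermat.Agent.TW.TWP59.Inflate21b

local notation "Γ" => (AlgebraicClosure ℚ ≃ₐ[ℚ] AlgebraicClosure ℚ)

variable {p : ℕ} [Fact p.Prime]

/-- The two inflation maps agree. -/
theorem infl_eq_infl1 (S₀ T : Finset Nat.Primes) (hST : S₀ ⊆ T) (N : Rep.{0} (ZMod p) Γ) :
    infl S₀ T hST N = infl1 hST N := by
  refine LinearMap.ext fun x => ?_
  obtain ⟨c, rfl⟩ := LevelCoh28.H1mk_surjective _ _ x
  rw [infl_mk, infl1_mk]
  congr 1

/-- Restriction commutes with inflation. -/
theorem res1_infl1 (S₀ T : Finset Nat.Primes) (hST : S₀ ⊆ T) (q : Nat.Primes)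
    (N : Rep.{0} (ZMod p) Γ) (x : H1g S₀ N) :
    res1 T q N (infl1 hST N x) = res1 S₀ q N x := by
  rw [← infl_eq_infl1]
  exact res1_infl S₀ T hST q N x

/-- A class in `H¹(G_T, N)` which is locally trivial at all primes of `T \ S₀` lies in the range of
the inflation map. -/
theorem mem_range_infl1 (hLG : LG) (hTR : TR) (S₀ T : Finset Nat.Primes) (hST : S₀ ⊆ T)
    (N : Rep.{0} (ZMod p) Γ) (hN : IsGood S₀ N) (y : H1g T N)
    (hy : ∀ q ∈ T, q ∉ S₀ → res1 T q N y = 0) : y ∈ LinearMap.range (infl1 hST N) := by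
  obtain ⟨x, hx⟩ := exists_infl hLG hTR S₀ T hST N hN y hy
  exact ⟨x, by rw [← infl_eq_infl1, hx]⟩

end Fermat.Agent.TW.TWP59.Inflate21b
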