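/-
Programme TW (S56), brick G2-3 (helper21): INFLATION `S₀ → T`, UNCONDITIONAL.

The hypotheses `LG`, `TR` of `Inflate21` are discharged by helper59's `LocGlob59.primeLocal_surj` and
helper24's `Places24.exists_smul_eq`.  Final corollary in the shape of `SIface72.TWKill` (v2):
`sel_union_eq_bot`.
-/
import Fermat.Agent.TW.TWP59.Inflate21b
import Fermat.Agent.TW.TWP59.LocGlob59
import Fermat.Agent.TW.TWP59.Places24

set_option autoImplicit false

open ExtCitation groupCohomology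
open Fermat.Agent.PT.PRO Fermat.Agent.PT.BR Fermat.Agent.PT.BR.LevelBridge13
open Fermat.Agent.TW.GWIface97 Fermat.Agent.TW.GWIface2_97 Fermat.Agent.TW.SDefs72
open Fermat.Agent.TW.TWP59.Inflate21 Fermat.Agent.TW.TWP59.Inflate21b

namespace Fermat.Agent.TW.TWP59.Inflate21c

local notation "Γ" => (AlgebraicClosure ℚ ≃ₐ[ℚ] AlgebraicClosure ℚ)

theorem lg : LG := fun q L hL σ hσ =>
  have : FiniteDimensional ℚ L := hL
  Fermat.Agent.TW.TWP59.LocGlob59.primeLocal_surj q L σ hσ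

theorem tr : TR := fun q hq A B hA hB =>
  Fermat.Agent.TW.TWP59.Places24.exists_smul_eq q hq A B hA hB

variable {p : ℕ} [Fact p.Prime]

/-- **Inflation, unconditional**: a class in `H¹(G_T, N)` which is locally trivial at all primes of
`T \ S₀` (`N` good for `S₀ ⊆ T`) lies in the range of `infl1 : H¹(G_{S₀}, N) → H¹(G_T, N)`. -/
theorem mem_range_infl1 (S₀ T : Finset Nat.Primes) (hST : S₀ ⊆ T)
    (N : Rep.{0} (ZMod p) Γ) (hN : IsGood S₀ N) (y : H1g T N)
    (hy : ∀ q ∈ T, q ∉ S₀ → res1 T q N y = 0) : y ∈ LinearMap.range (infl1 hST N) :=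
  Inflate21b.mem_range_infl1 lg tr S₀ T hST N hN y hy

/-- The Selmer group for `T ⊇ S₀` with the conditions `Ld` on `S₀` and `⊥` on `T \ S₀` vanishes as
soon as the classes of `Sel S₀ N Ld` which are locally trivial on `T \ S₀` vanish. -/
theorem sel_extBot_eq_bot (S₀ T : Finset Nat.Primes)
    (hST : S₀ ⊆ T) (N : Rep.{0} (ZMod p) Γ) (hN : IsGood S₀ N)
    (Ld : ∀ v : ↥S₀, Submodule (ZMod p) (H1l v.1 N))
    (h0 : ∀ x ∈ Sel S₀ N Ld, (∀ q ∈ T, q ∉ S₀ → res1 S₀ q N x = 0) → x = 0) :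
    Sel T N (extBot S₀ T N Ld) = ⊥ :=
  Inflate21.sel_extBot_eq_bot lg tr S₀ T hST N hN Ld h0

/-- **The shape consumed by `TWKill`** (v2): `S₀`, `Q` disjoint, `N` good for `S₀`, a total family of
local conditions `Ld`; if no nonzero class of `Sel S₀ N Ld` is locally trivial at all `q ∈ Q`, then
the Selmer group for `S₀ ∪ Q` with `⊥` at `Q` and `Ld` elsewhere vanishes. -/
theorem sel_union_eq_bot (S₀ Q : Finset Nat.Primes) [∀ v : Nat.Primes, Decidable (v ∈ Q)]
    (hdisj : Disjoint S₀ Q)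
    (N : Rep.{0} (ZMod p) Γ) (hN : IsGood S₀ N)
    (Ld : ∀ v : Nat.Primes, Submodule (ZMod p) (H1l v N))
    (h0 : ∀ x ∈ Sel S₀ N (fun v => Ld v.1), (∀ q ∈ Q, res1 S₀ q N x = 0) → x = 0) :
    Sel (S₀ ∪ Q) N (fun v => if v.1 ∈ Q then ⊥ else Ld v.1) = ⊥ := by
  have hfam : (fun v : ↥(S₀ ∪ Q) => if v.1 ∈ Q then (⊥ : Submodule (ZMod p) (H1l v.1 N))
      else Ld v.1) = extBot S₀ (S₀ ∪ Q) N (fun v => Ld v.1) := by
    funext v
    by_cases hvQ : v.1 ∈ Q
    · have hvS : v.1 ∉ S₀ := fun h => (Finset.disjoint_left.1 hdisj h) hvQ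
      rw [if_pos hvQ, extBot_of_not_mem _ _ _ _ v hvS]
    · have hvS : v.1 ∈ S₀ := by
        rcases Finset.mem_union.1 v.2 with h | h
        · exact h
        · exact absurd h hvQ
      rw [if_neg hvQ, extBot_of_mem _ _ _ _ v hvS]
  rw [hfam]
  refine sel_extBot_eq_bot S₀ (S₀ ∪ Q) Finset.subset_union_left N hN (fun v => Ld v.1) ?_
  intro x hx hq
  refine h0 x hx fun q hqQ => hq q (Finset.mem_union_right _ hqQ) ?_
  exact fun h => (Finset.disjoint_left.1 hdisj h) hqQ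

end Fermat.Agent.TW.TWP59.Inflate21c
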