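/-
Programme TW (S56), brick G2-0 (helper21 for helper59): the cyclic cocycle lemma.

`G` a group acting linearly on an `R`-module `A` through `ρ : G →* Module.End R A`, `c : G → A` a
1-cocycle (`c (g h) = c g + ρ g (c h)`).  `CobAt ρ c g` says that `c g ∈ range (ρ g - 1)`, i.e. that
the restriction of `c` to the cyclic group generated by `g` is a coboundary.

* `cobAt_conj`  : `CobAt` is invariant under conjugation;
* `cobAt_zpow`  : `CobAt ρ c g → CobAt ρ c (g ^ n)`, `n : ℤ`;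
* `cobAt_iff_of_zpowers_eq` : if `U` is a normal subgroup acting trivially on `A` on which `c`
  vanishes and `g U`, `h U` generate the same subgroup of `G ⧸ U`, then
  `CobAt ρ c g ↔ CobAt ρ c h`.
Mathlib only.
-/
import Mathlib

namespace Fermat.Agent.TW.TWP59.Cyclic21

variable {G : Type*} [Group G] {R : Type*} [CommRing R] {A : Type*} [AddCommGroup A] [Module R A]

/-- 1-cocycles as plain functions -/
def IsCoc (ρ : G →* Module.End R A) (c : G → A) : Prop :=
  ∀ g h, c (g * h) = c g + ρ g (c h)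

/-- `c g` lies in the image of `ρ g - 1` -/
def CobAt (ρ : G →* Module.End R A) (c : G → A) (g : G) : Prop :=
  c g ∈ LinearMap.range (ρ g - 1)

lemma cobAt_iff (ρ : G →* Module.End R A) (c : G → A) (g : G) :
    CobAt ρ c g ↔ ∃ a : A, ρ g a - a = c g := by
  unfold CobAt
  rw [LinearMap.mem_range]
  simp only [LinearMap.sub_apply, Module.End.one_apply]

variable {ρ : G →* Module.End R A} {c : G → A}

lemma IsCoc.map_one (hc : IsCoc ρ c) : c 1 = 0 := by
  have h := hc 1 1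
  rw [mul_one, _root_.map_one, Module.End.one_apply] at h
  exact add_eq_left.1 h.symm

lemma rho_inv_apply (g : G) (a : A) : ρ g⁻¹ (ρ g a) = a := by
  rw [← Module.End.mul_apply, ← _root_.map_mul, inv_mul_cancel, _root_.map_one,
    Module.End.one_apply]

lemma rho_apply_inv (g : G) (a : A) : ρ g (ρ g⁻¹ a) = a := by
  rw [← Module.End.mul_apply, ← _root_.map_mul, mul_inv_cancel, _root_.map_one,
    Module.End.one_apply]

lemma IsCoc.map_inv (hc : IsCoc ρ c) (g : G) : c g⁻¹ = -ρ g⁻¹ (c g) := by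
  have h := hc g⁻¹ g
  rw [inv_mul_cancel, hc.map_one] at h
  exact eq_neg_of_add_eq_zero_left h.symm

/-- the value of a cocycle on a conjugate -/
lemma IsCoc.map_conj (hc : IsCoc ρ c) (h g : G) :
    c (h * g * h⁻¹) = ρ h (c g) - (ρ (h * g * h⁻¹) (c h) - c h) := by
  rw [hc (h * g) h⁻¹, hc h g, hc.map_inv h]
  have e : ρ (h * g) (-(ρ h⁻¹) (c h)) = -ρ (h * g * h⁻¹) (c h) := by
    rw [_root_.map_neg, _root_.map_mul (f := ρ) (h * g) h⁻¹, Module.End.mul_apply]
  rw [e]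
  abel

/-- `CobAt` passes to conjugates. -/
theorem cobAt_conj_of (hc : IsCoc ρ c) (h g : G) (hg : CobAt ρ c g) :
    CobAt ρ c (h * g * h⁻¹) := by
  rw [cobAt_iff] at hg ⊢
  obtain ⟨a, ha⟩ := hg
  refine ⟨ρ h a - c h, ?_⟩
  rw [hc.map_conj h g, ← ha, _root_.map_sub, _root_.map_sub]
  have e : ρ (h * g * h⁻¹) (ρ h a) = ρ h (ρ g a) := by
    rw [← Module.End.mul_apply, ← _root_.map_mul, inv_mul_cancel_right, _root_.map_mul,
      Module.End.mul_apply]
  rw [e]
  abel

/-- `CobAt` is invariant under conjugation. -/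
theorem cobAt_conj (hc : IsCoc ρ c) (h g : G) :
    CobAt ρ c (h * g * h⁻¹) ↔ CobAt ρ c g := by
  refine ⟨fun H => ?_, cobAt_conj_of hc h g⟩
  have := cobAt_conj_of hc h⁻¹ (h * g * h⁻¹) H
  have e : h⁻¹ * (h * g * h⁻¹) * h⁻¹⁻¹ = g := by group
  rwa [e] at this

/-- if `c g = ρ g a - a` then `c (g ^ n) = ρ (g ^ n) a - a` -/
lemma IsCoc.map_pow_of (hc : IsCoc ρ c) (g : G) (a : A) (ha : ρ g a - a = c g) (n : ℕ) :
    ρ (g ^ n) a - a = c (g ^ n) := by
  induction n with
  | zero => rw [pow_zero, _root_.map_one, Module.End.one_apply, sub_self, hc.map_one]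
  | succ n ih =>
    rw [pow_succ', hc g (g ^ n), ← ih, ← ha, _root_.map_mul, Module.End.mul_apply,
      _root_.map_sub]
    abel

lemma IsCoc.map_inv_of (hc : IsCoc ρ c) (g : G) (a : A) (ha : ρ g a - a = c g) :
    ρ g⁻¹ a - a = c g⁻¹ := by
  rw [hc.map_inv, ← ha, _root_.map_sub, rho_inv_apply]
  abel

/-- `CobAt` passes to powers. -/
theorem cobAt_pow (hc : IsCoc ρ c) (g : G) (hg : CobAt ρ c g) (n : ℕ) : CobAt ρ c (g ^ n) := by
  rw [cobAt_iff] at hg ⊢
  obtain ⟨a, ha⟩ := hg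
  exact ⟨a, hc.map_pow_of g a ha n⟩

theorem cobAt_inv (hc : IsCoc ρ c) (g : G) (hg : CobAt ρ c g) : CobAt ρ c g⁻¹ := by
  rw [cobAt_iff] at hg ⊢
  obtain ⟨a, ha⟩ := hg
  exact ⟨a, hc.map_inv_of g a ha⟩

/-- `CobAt` passes to integer powers. -/
theorem cobAt_zpow (hc : IsCoc ρ c) (g : G) (hg : CobAt ρ c g) (n : ℤ) : CobAt ρ c (g ^ n) := by
  rcases Int.eq_nat_or_neg n with ⟨m, rfl | rfl⟩
  · rw [zpow_natCast]
    exact cobAt_pow hc g hg m
  · rw [zpow_neg, zpow_natCast]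
    exact cobAt_inv hc _ (cobAt_pow hc g hg m)

/-- right translation by an element acting trivially on which `c` vanishes -/
theorem cobAt_mul_right (hc : IsCoc ρ c) (g u : G) (hu : ρ u = 1) (hcu : c u = 0) :
    CobAt ρ c (g * u) ↔ CobAt ρ c g := by
  rw [cobAt_iff, cobAt_iff, hc g u, hcu, _root_.map_zero, add_zero, _root_.map_mul, hu, mul_one]

/-- **Cyclic cocycle lemma.**  `U` normal, acting trivially on `A`, `c` vanishing on `U`; if
`g U` is a power of `h U` and conversely, then `CobAt ρ c g ↔ CobAt ρ c h`. -/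
theorem cobAt_of_mem_zpowers (hc : IsCoc ρ c) (U : Subgroup G) [U.Normal]
    (hU : ∀ u ∈ U, ρ u = 1) (hcU : ∀ u ∈ U, c u = 0) (g h : G)
    (hgh : (h : G ⧸ U) ∈ Subgroup.zpowers (g : G ⧸ U)) (hg : CobAt ρ c g) : CobAt ρ c h := by
  obtain ⟨n, hn⟩ := Subgroup.mem_zpowers_iff.1 hgh
  rw [← QuotientGroup.mk_zpow, QuotientGroup.eq] at hn
  -- `h = g ^ n * u`
  set u := (g ^ n)⁻¹ * h with hu
  have hh : h = g ^ n * u := by rw [hu]; group
  rw [hh, cobAt_mul_right hc _ u (hU u hn) (hcU u hn)]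
  exact cobAt_zpow hc g hg n

theorem cobAt_iff_of_zpowers_eq (hc : IsCoc ρ c) (U : Subgroup G) [U.Normal]
    (hU : ∀ u ∈ U, ρ u = 1) (hcU : ∀ u ∈ U, c u = 0) (g h : G)
    (hgh : Subgroup.zpowers (g : G ⧸ U) = Subgroup.zpowers (h : G ⧸ U)) :
    CobAt ρ c g ↔ CobAt ρ c h := by
  constructor
  · refine cobAt_of_mem_zpowers hc U hU hcU g h ?_
    rw [hgh]
    exact Subgroup.mem_zpowers _
  · refine cobAt_of_mem_zpowers hc U hU hcU h g ?_
    rw [← hgh]
    exact Subgroup.mem_zpowers _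

/-- variant: `c` is right-`U`-invariant instead of vanishing on `U` -/
theorem vanish_of_right_invariant (hc : IsCoc ρ c) (U : Subgroup G)
    (hinv : ∀ g, ∀ u ∈ U, c (g * u) = c g) : ∀ u ∈ U, c u = 0 := by
  intro u hu
  have := hinv 1 u hu
  rwa [one_mul, hc.map_one] at this

end Fermat.Agent.TW.TWP59.Cyclic21
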