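/-
Programme TW (S56), brick G2 (choice of Taylor–Wiles primes), leaf (G2-4) — helper59.

**THE KEY PRIME.**  `Γ = Gal(ℚ̄/ℚ)`, `N` a good module for `S0`, `c` a level-`S0` cocycle with
values in `N`.  Given `σ ∈ Γ` (produced by the group theory: `σ ∈ C`, `Good σ`, and, if the class
of `c` is nonzero, `c σ ∉ (σ - 1) N`), Chebotarev (`ES/GAL/ChebQbar23`, generator form) gives a
prime `q ∉ S0 ∪ Tavoid`, a place `A` over `q` and a Frobenius `φ` at `A` generating the same cyclic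
subgroup as `σ` at a finite Galois level `N'` (unramified outside `S0`, trivialising `N`, `c`, `Good`
and `C`).  Then `φ ∈ C`, `Good φ`, and the restriction of the class of `c` to the local Galois group
at `q` is nonzero (if `c σ ∉ (σ - 1) N`): the local group contains a Frobenius at `primeLocalPlace q`
(helper66's `LocalGen66.exists_frobenius_global`), all Frobenius pairs over `q` are conjugate modulo
inertia (helper24's `Places24`), and "`c` is a coboundary at `g`" only depends on the cyclic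
subgroup generated by `g` modulo `Gal(ℚ̄/N')` up to conjugation (helper21's `Cyclic21`).
-/
import Mathlib
import Fermat.Agent.ES.GAL.ChebQbar23
import Fermat.Agent.TW.GWIface97
import Fermat.Agent.TW.LocalGen66
import Fermat.Agent.TW.TWP59.Cyclic21
import Fermat.Agent.TW.TWP59.Places24

set_option autoImplicit false

open ExtCitation groupCohomology
open scoped Pointwise
open Fermat.Agent.PT.PRO Fermat.Agent.PT.BR Fermat.Agent.PT.BR.LevelBridge13
open Fermat.Agent.TW.GWIface97 Fermat.Agent.TW.TWP59.Cyclic21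

namespace Fermat.Agent.TW.TWP59.KeyPrime59

local notation "Qbar" => AlgebraicClosure ℚ
local notation "Γ" => (AlgebraicClosure ℚ ≃ₐ[ℚ] AlgebraicClosure ℚ)

local instance isAlgClosureQbarKP : IsAlgClosure ℚ Qbar := ⟨inferInstance, inferInstance⟩
local instance normalQbarKP : Normal ℚ Qbar := IsAlgClosure.normal ℚ Qbar
local instance isGaloisQbarKP : IsGalois ℚ Qbar := IsAlgClosure.isGalois ℚ Qbar

variable {p : ℕ} [Fact p.Prime]

/-- A Mathlib 1-cocycle is a cocycle in the sense of `Cyclic21`. -/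
theorem isCoc_of_mem_cocycles₁ {N : Rep.{0} (ZMod p) Γ} {c : Γ → N} (hc : c ∈ cocycles₁ N) :
    IsCoc N.ρ c := by
  intro g h
  rw [(mem_cocycles₁_iff c).1 hc g h, add_comm]

/-- Elements generating the same cyclic subgroup of `Gal(L/ℚ)`: explicit form. -/
theorem exists_zpow_mul_of_mem_zpowers (L : IntermediateField ℚ Qbar) [IsGalois ℚ L] {σ φ : Γ}
    (h : AlgEquiv.restrictNormalHom L φ ∈ Subgroup.zpowers (AlgEquiv.restrictNormalHom L σ)) :
    ∃ z : ℤ, ∃ u ∈ L.fixingSubgroup, φ = σ ^ z * u := by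
  obtain ⟨z, hz⟩ := Subgroup.mem_zpowers_iff.1 h
  refine ⟨z, (σ ^ z)⁻¹ * φ, ?_, by group⟩
  have hres : AlgEquiv.restrictNormalHom L ((σ ^ z)⁻¹ * φ) = 1 := by
    rw [map_mul, map_inv, map_zpow, hz, inv_mul_cancel]
  rw [IntermediateField.mem_fixingSubgroup_iff]
  intro x hx
  have h1 : algebraMap L Qbar ((AlgEquiv.restrictNormalHom L ((σ ^ z)⁻¹ * φ)) ⟨x, hx⟩) =
      ((σ ^ z)⁻¹ * φ) (algebraMap L Qbar ⟨x, hx⟩) :=
    AlgEquiv.restrictNormal_commutes ((σ ^ z)⁻¹ * φ) L ⟨x, hx⟩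
  rw [hres] at h1
  exact h1.symm

/-- **The key prime**, abstract form. -/
theorem exists_prime_of_sigma (S0 : Finset Nat.Primes) (N : Rep.{0} (ZMod p) Γ)
    (hN : IsGood S0 N) (c : ↥(LevelCoh28.Z1 (globalBasis S0) N))
    (Good : Γ → Prop) (K C : Subgroup Γ) (hKC : K ≤ C)
    (hK : ∃ E : IntermediateField ℚ Qbar, E.IsUnramifiedOutside S0 ∧ E.fixingSubgroup ≤ K)
    (hGood : ∀ (φ : Γ) (z : ℤ) (u : Γ), u ∈ K → Good (φ ^ z * u) → Good φ)
    (σ : Γ) (hσC : σ ∈ C) (hσG : Good σ) (Tavoid : Finset ℕ) :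
    ∃ (q : Nat.Primes) (A : ValuationSubring Qbar) (φ : Γ), (q : ℕ) ∉ Tavoid ∧ q ∉ S0 ∧
      A.LiesOverPrime q ∧ A.IsFrobeniusAt φ q ∧ φ ∈ C ∧ Good φ ∧
      (¬ CobAt N.ρ (c : Γ → N) σ →
        res1 S0 q N (LevelCoh28.H1mk (globalBasis S0) N c) ≠ 0) := by
  classical
  have hfin := hN.fin
  have hcoc : IsCoc N.ρ (c : Γ → N) := isCoc_of_mem_cocycles₁ c.2.1
  -- the level of `c`
  obtain ⟨_, ⟨F, hFS, rfl⟩, hFc⟩ := c.2.2
  -- the level of `N`
  obtain ⟨LN, hLNS, -, hLN⟩ :=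
    exists_isUnramifiedOutside_forall_ρ_eq_one S0 N hN.smooth hN.unram
  -- the level of `Good` and `C`
  obtain ⟨E, hES, hEK⟩ := hK
  -- a common Galois level
  obtain ⟨N', hle, hN'G, hN'S⟩ :=
    UnramBridge13.exists_isGalois_isUnramifiedOutside ((hFS.sup hLNS).sup hES)
  have hfd := hN'S.1
  have hgal := hN'G
  have hUF : N'.fixingSubgroup ≤ F.fixingSubgroup :=
    IntermediateField.fixingSubgroup_antitone ((le_sup_left.trans le_sup_left).trans hle)
  have hULN : N'.fixingSubgroup ≤ LN.fixingSubgroup :=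
    IntermediateField.fixingSubgroup_antitone ((le_sup_right.trans le_sup_left).trans hle)
  have hUK : N'.fixingSubgroup ≤ K :=
    (IntermediateField.fixingSubgroup_antitone (le_sup_right.trans hle)).trans hEK
  have hUn : N'.fixingSubgroup.Normal := normal_fixingSubgroup N'
  have hρU : ∀ u ∈ N'.fixingSubgroup, N.ρ u = 1 := fun u hu => hLN u (hULN hu)
  have hcU : ∀ u ∈ N'.fixingSubgroup, (c : Γ → N) u = 0 :=
    vanish_of_right_invariant hcoc _ fun g u hu => hFc g u (hUF hu)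
  -- Chebotarev
  obtain ⟨q, A, φ, hq, hqT, hA, hφ, hgen⟩ :=
    Fermat.Agent.ES.GAL.ChebQbar23.exists_frobenius_zpowers_eq N'
      (AlgEquiv.restrictNormalHom N' σ) (Tavoid ∪ S0.image (fun v : Nat.Primes => (v : ℕ)))
  have hqT' : q ∉ Tavoid := fun h => hqT (Finset.mem_union_left _ h)
  obtain ⟨qq, hqq⟩ : ∃ qq : Nat.Primes, (qq : ℕ) = q := ⟨⟨q, hq⟩, rfl⟩
  have hqS : qq ∉ S0 := fun h =>
    hqT (Finset.mem_union_right _ (Finset.mem_image.2 ⟨qq, h, hqq⟩))
  obtain ⟨z, u, hu, hφσ⟩ := exists_zpow_mul_of_mem_zpowers N' (σ := σ) (φ := φ)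
    (by rw [← hgen]; exact Subgroup.mem_zpowers _)
  obtain ⟨z', u', hu', hσφ⟩ := exists_zpow_mul_of_mem_zpowers N' (σ := φ) (φ := σ)
    (by rw [hgen]; exact Subgroup.mem_zpowers _)
  subst hqq
  refine ⟨qq, A, φ, hqT', hqS, hA, hφ, ?_, ?_, ?_⟩
  · rw [hφσ]
    exact C.mul_mem (C.zpow_mem hσC z) (hKC (hUK hu))
  · exact hGood φ z' u' (hUK hu') (hσφ ▸ hσG)
  · intro hncob hres
    apply hncob
    -- the restriction of `c` to the local group is a coboundary
    rw [ShaBridge13.resH1_mk, LevelCoh28.H1mk_eq_zero_iff] at hres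
    obtain ⟨m, hm⟩ := hres
    -- a Frobenius in the local group
    obtain ⟨g₀, hg₀⟩ := Fermat.Agent.TW.LocalGen66.exists_frobenius_global qq
    have hP₀ := Fermat.Agent.TW.LocalGen66.liesOverPrime_primeLocalPlace qq
    have h1 : CobAt N.ρ (c : Γ → N) (primeLocalToGlobal qq g₀) := by
      rw [cobAt_iff]
      exact ⟨m, congrFun hm g₀⟩
    -- conjugate `(A, φ)` to `primeLocalPlace q`
    obtain ⟨γ, hγ⟩ := Fermat.Agent.TW.TWP59.Places24.exists_smul_eq (qq : ℕ) hq A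
      (primeLocalPlace qq) hA hP₀
    have h2 : (primeLocalPlace qq).IsFrobeniusAt (γ * φ * γ⁻¹) (qq : ℕ) :=
      hγ ▸ Fermat.Agent.TW.TWP59.Places24.isFrobeniusAt_conj hφ γ
    have h3 := Fermat.Agent.TW.TWP59.Places24.mul_inv_mem_inertia h2 hg₀
    have h4 : primeLocalToGlobal qq g₀ * (γ * φ * γ⁻¹)⁻¹ ∈ N'.fixingSubgroup :=
      hN'S.2 qq hqS _ hP₀ h3
    -- `ι g₀ = y * u''` with `y = γ φ γ⁻¹`, `u'' ∈ U`
    set y := γ * φ * γ⁻¹ with hy
    have h5 : y⁻¹ * (primeLocalToGlobal qq g₀ * y⁻¹) * y⁻¹⁻¹ ∈ N'.fixingSubgroup :=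
      hUn.conj_mem _ h4 y⁻¹
    have h6 : primeLocalToGlobal qq g₀
        = y * (y⁻¹ * (primeLocalToGlobal qq g₀ * y⁻¹) * y⁻¹⁻¹) := by group
    rw [h6, cobAt_mul_right hcoc _ _ (hρU _ h5) (hcU _ h5), hy, cobAt_conj hcoc] at h1
    -- from `φ` to `σ`
    rw [hσφ, cobAt_mul_right hcoc _ _ (hρU _ hu') (hcU _ hu')]
    exact cobAt_zpow hcoc φ h1 z'

end Fermat.Agent.TW.TWP59.KeyPrime59
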