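/-
Programme TW (S56), brick G2-6 adapter (helper24): SEL(n), SEL0(n) of `SelAd24c` in the vocabulary of
`Cyclic21` (`IsCoc`, `CobAt`) and of level cohomology (`cocycles₁`, `coboundaries₁`, `H1g`).
-/
import Fermat.Agent.TW.SelAd24c
import Fermat.Agent.TW.TWP59.Cyclic21

set_option autoImplicit false

open Polynomial Matrix ExtCitation groupCohomology
open Fermat.Agent.PT.PRO Fermat.Agent.PT.BR Fermat.Agent.PT.BR.LevelBridge13
open Fermat.Agent.TW.Interface Fermat.Agent.TW.GWIface97 Fermat.Agent.TW.SDefs72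
open Fermat.Agent.TW.SelAd24a Fermat.Agent.TW.TWP59.Cyclic21

namespace Fermat.Agent.TW.TWP59.SelZ1_24

local notation "Γ" => (AlgebraicClosure ℚ ≃ₐ[ℚ] AlgebraicClosure ℚ)

variable {k : Type} [Field k] [Finite k] (ρbar : ResidualGaloisRep k) (p : ℕ) [Fact p.Prime]
  (hchar : (p : k) = 0)

/-- SEL(n) for cocycles in the sense of Mathlib's `cocycles₁` / `coboundaries₁`, conclusion in the
vocabulary of `Cyclic21`. -/
theorem sel_cocycles (hp2 : p ≠ 2) (habs : ρbar.IsAbsolutelyIrreducible)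
    (hTW : ∀ (K : Type) [Field K] [Algebra k K] (G : Subgroup Γ), G.index = 2 →
      ∀ V : Submodule K (ρbar.baseChange K).V,
        (∀ σ ∈ G, ∀ x ∈ V, (ρbar.baseChange K).ρ σ x ∈ V) → V = ⊥ ∨ V = ⊤)
    (hdet : (GaloisRepAdic.ofResidualGaloisRep ρbar).DetIsCyclotomic p)
    (hsplit : ∀ σ : Γ, ∃ α β : k, LinearMap.charpoly (ρbar.ρ σ) = (X - C α) * (X - C β))
    (n : ℕ) (c : Γ → dual (ad0F ρbar p hchar))
    (hc : c ∈ cocycles₁ (dual (ad0F ρbar p hchar)))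
    (hnc : c ∉ coboundaries₁ (dual (ad0F ρbar p hchar))) :
    IsCoc (dual (ad0F ρbar p hchar)).ρ c ∧
    ∃ σ ∈ Cn p n, Good ρbar σ ∧ ¬ CobAt (dual (ad0F ρbar p hchar)).ρ c σ := by
  have hcoc : ∀ σ τ : Γ, c (σ * τ) = c σ + (dual (ad0F ρbar p hchar)).ρ σ (c τ) := by
    intro σ τ
    rw [(mem_cocycles₁_iff c).mp hc σ τ, add_comm]
  refine ⟨hcoc, ?_⟩
  refine SelAd24c.sel_final ρbar p hchar hp2 habs hTW hdet hsplit n c hcoc ?_
  rintro ⟨m, hm⟩
  apply hnc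
  refine ⟨m, ?_⟩
  funext σ
  rw [d₀₁_hom_apply, hm σ]

/-- SEL(n) for a nonzero class of `H¹(G_{S0}, N)`: every representing cocycle is not a coboundary at
some `σ` fixing `μ_{p^(n+1)}` with distinct eigenvalues. -/
theorem sel_class (hp2 : p ≠ 2) (habs : ρbar.IsAbsolutelyIrreducible)
    (hTW : ∀ (K : Type) [Field K] [Algebra k K] (G : Subgroup Γ), G.index = 2 →
      ∀ V : Submodule K (ρbar.baseChange K).V,
        (∀ σ ∈ G, ∀ x ∈ V, (ρbar.baseChange K).ρ σ x ∈ V) → V = ⊥ ∨ V = ⊤)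
    (hdet : (GaloisRepAdic.ofResidualGaloisRep ρbar).DetIsCyclotomic p)
    (hsplit : ∀ σ : Γ, ∃ α β : k, LinearMap.charpoly (ρbar.ρ σ) = (X - C α) * (X - C β))
    (n : ℕ) (S0 : Finset Nat.Primes)
    (c : ↥(LevelCoh28.Z1 (globalBasis S0) (dual (ad0F ρbar p hchar))))
    (hx : LevelCoh28.H1mk (globalBasis S0) (dual (ad0F ρbar p hchar)) c ≠ 0) :
    IsCoc (dual (ad0F ρbar p hchar)).ρ (c : Γ → dual (ad0F ρbar p hchar)) ∧
    ∃ σ ∈ Cn p n, Good ρbar σ ∧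
      ¬ CobAt (dual (ad0F ρbar p hchar)).ρ (c : Γ → dual (ad0F ρbar p hchar)) σ := by
  refine sel_cocycles ρbar p hchar hp2 habs hTW hdet hsplit n _ ?_ ?_
  · exact ((LevelCoh28.mem_Z1_iff _ _ _).mp c.2).1
  · intro h
    exact hx ((LevelCoh28.H1mk_eq_zero_iff _ _ c).mpr h)

end Fermat.Agent.TW.TWP59.SelZ1_24
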