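/-
Programme TW (S56), brick G2 = `SIface72.TWKill` (helper59): FINAL ASSEMBLY, part 1 (everything except the
last wiring step, which is `TWP59/TWKill59.lean`).

`twKill : SIface72.TWKill 𝒪 p`: for every finite base set `T0 ⊇ Smin` and every total family `Ld` of
local conditions for `N = (ad⁰ ρbar)^∨(1)` there is `r` such that for every `n` there is a
Taylor–Wiles family `qv : Fin r → ℕ` of level `n` with
`Sel (T0 ∪ Q) N (⊥ at Q, Ld elsewhere) = ⊥`.

Ingredients (all on main, all sorry-free):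
* `SelZ1_24.sel_class`, `SelAd24c.sel0_final` (SEL(n), SEL0(n): the group theory of `ad⁰`),
* `KeyPrime59.exists_prime_of_sigma` (Chebotarev + local Frobenius + cyclic cocycle lemma),
* `KeyAux24` (K1a, K1b, K1c), `Places24.distinct_eigen_of_frob`,
* `Induct21.exists_family` (induction on the dimension of the dual Selmer group),
* `Inflate21c.sel_union_eq_bot` (inflation: enlarging the ramification set by `Q`),
* `FinH1g9.finite_H1g`, `SGlobArch9.isGood_ad0F`, `DualTwist7` (stability of `IsGood` under duals).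
-/
import Mathlib
import Fermat.Agent.TW.SIface72
import Fermat.Agent.TW.SGlobArch9
import Fermat.Agent.TW.SelAd24c
import Fermat.Agent.PT.BR.DualTwist7
import Fermat.Agent.TW.TWP59.SelZ1_24
import Fermat.Agent.TW.TWP59.KeyAux24
import Fermat.Agent.TW.TWP59.KeyPrime59
import Fermat.Agent.TW.TWP59.Induct21
import Fermat.Agent.TW.TWP59.Inflate21c
import Fermat.Agent.TW.TWP59.FinH1g9
import Fermat.Agent.TW.TWP59.Places24

set_option autoImplicit false
set_option linter.unusedSectionVars false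

open Polynomial IsLocalRing
open ExtCitation groupCohomology
open Fermat.Agent.PT.PRO Fermat.Agent.PT.BR Fermat.Agent.PT.BR.LevelBridge13
open Fermat.Agent.TW.Interface Fermat.Agent.TW.GWIface97 Fermat.Agent.TW.SDefs72
open Fermat.Agent.TW.SelAd24a Fermat.Agent.TW.TWP59.Cyclic21

namespace Fermat.Agent.TW.TWP59.TWKillCore59

local notation "Γ" => (AlgebraicClosure ℚ ≃ₐ[ℚ] AlgebraicClosure ℚ)
local notation "Qbar" => AlgebraicClosure ℚ

/-! ### Abstract part: an arbitrary coefficient module `N` -/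

section Abstract

variable {p : ℕ} [Fact p.Prime]

/-- `IsGood` is stable under Tate duals (for `S ∋ p`). -/
theorem isGood_dual {S : Finset Nat.Primes} (hpS : pPrime p ∈ S) {M : Rep.{0} (ZMod p) Γ}
    (hM : IsGood S M) : IsGood S (dual M) := by
  have := hM.fin
  exact ⟨DualTwist7.finiteDimensional_dualTwist M, DualTwist7.smooth_dualTwist M hM.smooth,
    DualTwist7.unram_dualTwist M hpS hM.unram⟩

/-- Transfer of the vanishing of a Selmer group along an equality of the ramification sets and a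
pointwise equality of the local conditions. -/
theorem sel_transfer {T T' : Finset Nat.Primes} (hT : T = T') (N : Rep.{0} (ZMod p) Γ)
    (L : ∀ v : ↥T, Submodule (ZMod p) (H1l v.1 N))
    (L' : ∀ v : ↥T', Submodule (ZMod p) (H1l v.1 N))
    (hL : ∀ (v : Nat.Primes) (hv : v ∈ T) (hv' : v ∈ T'), L ⟨v, hv⟩ = L' ⟨v, hv'⟩)
    (h : Sel T' N L' = ⊥) : Sel T N L = ⊥ := by
  subst hT
  have hLL : L = L' := funext fun v => hL v.1 v.2 v.2
  rw [hLL]
  exact h

/-- **Induction on the dimension**, in the vocabulary of `GWIface97`: if for every class `x` and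
every finite set `T` of primes there is an admissible prime `q ∉ T` such that `x ≠ 0` implies
`res_q x ≠ 0`, then there are `dim Sel` admissible primes killing `Sel`. -/
theorem exists_family_of_key (S0 : Finset Nat.Primes) (hpS0 : pPrime p ∈ S0)
    (N : Rep.{0} (ZMod p) Γ) (hN : IsGood S0 N)
    (X : Submodule (ZMod p) (H1g S0 N)) (Adm : Nat.Primes → Prop)
    (hkey : ∀ (x : H1g S0 N) (T : Finset Nat.Primes),
      ∃ q : Nat.Primes, q ∉ T ∧ Adm q ∧ (x ≠ 0 → res1 S0 q N x ≠ 0)) :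
    ∃ qv' : Fin (Module.finrank (ZMod p) X) → Nat.Primes,
      Function.Injective qv' ∧ (∀ j, Adm (qv' j)) ∧
      ∀ x ∈ X, (∀ j, res1 S0 (qv' j) N x = 0) → x = 0 := by
  have hfin : Module.Finite (ZMod p) (H1g S0 N) := FinH1g9.finite_H1g S0 hpS0 N hN
  obtain ⟨qv', hinj, -, hAdm, hbot⟩ :=
    Induct21.exists_family (F := ZMod p) (H := H1g S0 N) (ι := Nat.Primes) Adm
      (fun q => LinearMap.ker (res1 S0 q N))
      (fun x T => by
        obtain ⟨q, h1, h2, h3⟩ := hkey x T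
        exact ⟨q, h1, h2, fun hx hmem => h3 hx (LinearMap.mem_ker.1 hmem)⟩)
      X ∅
  refine ⟨qv', hinj, hAdm, fun x hxX hx => ?_⟩
  have hmem : x ∈ X ⊓ ⨅ j, LinearMap.ker (res1 S0 (qv' j) N) := by
    refine Submodule.mem_inf.2 ⟨hxX, ?_⟩
    rw [Submodule.mem_iInf]
    exact fun j => LinearMap.mem_ker.2 (hx j)
  rw [hbot] at hmem
  exact (Submodule.mem_bot _).1 hmem

/-- The same, uniformly in a level `n`: the number `r` of primes does not depend on `n`. -/
theorem exists_family_of_key_unif (S0 : Finset Nat.Primes) (hpS0 : pPrime p ∈ S0)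
    (N : Rep.{0} (ZMod p) Γ) (hN : IsGood S0 N)
    (X : Submodule (ZMod p) (H1g S0 N)) (Adm : ℕ → Nat.Primes → Prop)
    (hkey : ∀ (n : ℕ) (x : H1g S0 N) (T : Finset Nat.Primes),
      ∃ q : Nat.Primes, q ∉ T ∧ Adm n q ∧ (x ≠ 0 → res1 S0 q N x ≠ 0)) :
    ∃ r : ℕ, ∀ n : ℕ, ∃ qv' : Fin r → Nat.Primes,
      Function.Injective qv' ∧ (∀ j, Adm n (qv' j)) ∧
      ∀ x ∈ X, (∀ j, res1 S0 (qv' j) N x = 0) → x = 0 :=
  ⟨Module.finrank (ZMod p) X, fun n => exists_family_of_key S0 hpS0 N hN X (Adm n) (hkey n)⟩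

/-- **Inflation**, in a shape which unifies with `SIface72.TWKill` whatever decidability instances
are used there: the finite sets `I` (the Taylor–Wiles primes as natural numbers) and `TI = T0 ∪ I` are
described by their members, the family of local conditions `Lfam` by its values (`⊥` at the places of
`I`, `Ld` elsewhere). -/
theorem sel_family_eq_bot (T0 : Finset ℕ) (N : Rep.{0} (ZMod p) Γ) (hN : IsGood (toPrimes T0) N)
    (Ld : ∀ v : Nat.Primes, Submodule (ZMod p) (H1l v N)) {r : ℕ} (qv' : Fin r → Nat.Primes)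
    (hout : ∀ j, qv' j ∉ toPrimes T0)
    (hzero : ∀ x ∈ Sel (toPrimes T0) N (fun v => Ld v.1),
      (∀ j, res1 (toPrimes T0) (qv' j) N x = 0) → x = 0)
    (I : Finset ℕ) (hI : ∀ v : Nat.Primes, ((v : Nat.Primes) : ℕ) ∈ I ↔ ∃ j, qv' j = v)
    (TI : Finset ℕ) (hTI : ∀ x : ℕ, x ∈ TI ↔ x ∈ T0 ∨ x ∈ I)
    (Lfam : ∀ v : ↥(toPrimes TI), Submodule (ZMod p) (H1l v.1 N))
    (h1 : ∀ v : ↥(toPrimes TI), ((v.1 : Nat.Primes) : ℕ) ∈ I → Lfam v = ⊥)
    (h2 : ∀ v : ↥(toPrimes TI), ((v.1 : Nat.Primes) : ℕ) ∉ I → Lfam v = Ld v.1) :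
    Sel (toPrimes TI) N Lfam = ⊥ := by
  classical
  have hP : ∀ v : Nat.Primes, ((v : Nat.Primes) : ℕ) ∈ I ↔ v ∈ Finset.univ.image qv' := by
    intro v
    rw [hI v]
    constructor
    · rintro ⟨j, hj⟩
      exact Finset.mem_image.2 ⟨j, Finset.mem_univ j, hj⟩
    · intro hv
      obtain ⟨j, -, hj⟩ := Finset.mem_image.1 hv
      exact ⟨j, hj⟩
  have hT : toPrimes TI = toPrimes T0 ∪ Finset.univ.image qv' := by
    ext v
    rw [mem_toPrimes, Finset.mem_union, mem_toPrimes, hTI, hP v]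
  have hdisj : Disjoint (toPrimes T0) (Finset.univ.image qv') := by
    rw [Finset.disjoint_left]
    intro v hv hvQ
    obtain ⟨j, -, rfl⟩ := Finset.mem_image.1 hvQ
    exact hout j hv
  have hsel := Inflate21c.sel_union_eq_bot (toPrimes T0) (Finset.univ.image qv') hdisj N hN Ld
    (fun x hx hq => hzero x hx fun j =>
      hq (qv' j) (Finset.mem_image_of_mem _ (Finset.mem_univ j)))
  refine sel_transfer hT N Lfam _ (fun v hv hv' => ?_) hsel
  by_cases hvI : ((v : Nat.Primes) : ℕ) ∈ I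
  · rw [h1 ⟨v, hv⟩ hvI]
    exact (if_pos ((hP v).1 hvI)).symm
  · rw [h2 ⟨v, hv⟩ hvI]
    exact (if_neg (fun h' => hvI ((hP v).2 h'))).symm

end Abstract

/-! ### The level of `ρbar` -/

section Level

variable {k : Type} [Field k] (ρbar : ResidualGaloisRep k)

/-- A finite extension of `ℚ`, unramified outside `S0`, whose absolute Galois group lies in the kernel
of `ρbar` (for `ρbar` unramified outside `S0`). -/
theorem exists_field_ker (S0 : Finset Nat.Primes)
    (hur : ∀ q : Nat.Primes, q ∉ S0 → ρbar.IsUnramifiedAt q) :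
    ∃ E : IntermediateField ℚ Qbar, E.IsUnramifiedOutside S0 ∧
      E.fixingSubgroup ≤ MonoidHom.ker ρbar.ρ := by
  obtain ⟨F, hFfin, hF⟩ := ρbar.factorsThroughFiniteLevel
  have := hFfin
  let N : Subgroup Γ := MonoidHom.ker ρbar.ρ
  have hFN : F.fixingSubgroup ≤ N := fun s hs =>
    MonoidHom.mem_ker.2 (hF s fun x hx => hs ⟨x, hx⟩)
  have hNopen : IsOpen (N : Set Γ) := Subgroup.isOpen_mono hFN F.fixingSubgroup_isOpen
  have hNclosed : IsClosed (N : Set Γ) := Subgroup.isClosed_of_isOpen N hNopen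
  let Nc : ClosedSubgroup Γ := ⟨N, hNclosed⟩
  have hfix : (IntermediateField.fixedField N).fixingSubgroup = N :=
    InfiniteGalois.fixingSubgroup_fixedField Nc
  have hle : IntermediateField.fixedField N ≤ F := by
    have h1 := IntermediateField.fixedField_antitone hFN
    rwa [InfiniteGalois.fixedField_fixingSubgroup] at h1
  refine ⟨IntermediateField.fixedField N, ⟨?_, fun q hq A hA g hg => ?_⟩, ?_⟩
  · exact FiniteDimensional.of_injective (IntermediateField.inclusion hle).toLinearMap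
      (IntermediateField.inclusion_injective hle)
  · rw [hfix]
    exact MonoidHom.mem_ker.2 (hur q hq A hA g hg)
  · rw [hfix]

/-- `ρbar` is unramified outside `T0 ⊇ Smin`. -/
theorem unram_outside (p : ℕ) (Smin T0 : Finset ℕ) (hpSmin : p ∈ Smin) (hT0 : Smin ⊆ T0)
    (hmin : ∀ q : ℕ, q.Prime → q ≠ p → (q ∈ Smin ↔ ¬ ρbar.IsUnramifiedAt q)) :
    ∀ q : Nat.Primes, q ∉ toPrimes T0 → ρbar.IsUnramifiedAt q := by
  intro q hq
  have hqT0 : (q : ℕ) ∉ T0 := fun h => hq (mem_toPrimes.2 h)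
  have hqSmin : (q : ℕ) ∉ Smin := fun h => hqT0 (hT0 h)
  have hqp : (q : ℕ) ≠ p := fun h => hqSmin (h ▸ hpSmin)
  exact not_not.1 (mt (hmin q q.2 hqp).2 hqSmin)

end Level

/-! ### The key step for `N = (ad⁰ ρbar)^∨(1)` -/

section Core

variable {k : Type} [Field k] [Finite k] (ρbar : ResidualGaloisRep k) (p : ℕ) [Fact p.Prime]
  (hchar : (p : k) = 0)

/-- The admissible (Taylor–Wiles) primes of level `n`. -/
def AdmTW (S T0 : Finset ℕ) (n : ℕ) (q : Nat.Primes) : Prop :=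
  ((q : Nat.Primes) : ℕ) ∉ S ∧ q ∉ toPrimes T0 ∧ p ^ (n + 1) ∣ ((q : Nat.Primes) : ℕ) - 1 ∧
    ∀ P : ValuationSubring Qbar, P.LiesOverPrime ((q : Nat.Primes) : ℕ) →
      ∀ φ : Γ, P.IsFrobeniusAt φ ((q : Nat.Primes) : ℕ) →
        ∃ α β : k, α ≠ β ∧ LinearMap.charpoly (ρbar.ρ φ) = (X - C α) * (X - C β)

/-- `(ad⁰ ρbar)^∨(1)` is good for `T0 ⊇ Smin`. -/
theorem isGood_dual_ad0F (Smin T0 : Finset ℕ) (hpSmin : p ∈ Smin) (hT0 : Smin ⊆ T0)
    (hmin : ∀ q : ℕ, q.Prime → q ≠ p → (q ∈ Smin ↔ ¬ ρbar.IsUnramifiedAt q)) :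
    IsGood (toPrimes T0) (dual (ad0F ρbar p hchar)) :=
  isGood_dual (mem_toPrimes.2 (hT0 hpSmin))
    (SGlobArch9.isGood_ad0F ρbar p hchar (toPrimes T0)
      (unram_outside ρbar p Smin T0 hpSmin hT0 hmin))

/-- **The key step**: for every class `x` and every finite set `T` of primes there is a Taylor–Wiles
prime `q ∉ T` of level `n` such that `x ≠ 0 → res_q x ≠ 0`. -/
theorem key_step (hp2 : p ≠ 2) (habs : ρbar.IsAbsolutelyIrreducible)
    (hTW : ∀ (K : Type) [Field K] [Algebra k K] (G : Subgroup Γ), G.index = 2 →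
      ∀ V : Submodule K (ρbar.baseChange K).V,
        (∀ σ ∈ G, ∀ x ∈ V, (ρbar.baseChange K).ρ σ x ∈ V) → V = ⊥ ∨ V = ⊤)
    (hdet : (GaloisRepAdic.ofResidualGaloisRep ρbar).DetIsCyclotomic p)
    (hsplit : ∀ σ : Γ, ∃ α β : k, LinearMap.charpoly (ρbar.ρ σ) = (X - C α) * (X - C β))
    (S Smin T0 : Finset ℕ) (hpSmin : p ∈ Smin) (hSmin : Smin ⊆ S) (hT0 : Smin ⊆ T0)
    (hmin : ∀ q : ℕ, q.Prime → q ≠ p → (q ∈ Smin ↔ ¬ ρbar.IsUnramifiedAt q)) (n : ℕ)
    (x : H1g (toPrimes T0) (dual (ad0F ρbar p hchar))) (T : Finset Nat.Primes) :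
    ∃ q : Nat.Primes, q ∉ T ∧ AdmTW ρbar p S T0 n q ∧
      (x ≠ 0 → res1 (toPrimes T0) q (dual (ad0F ρbar p hchar)) x ≠ 0) := by
  classical
  have hpS0 : pPrime p ∈ toPrimes T0 := mem_toPrimes.2 (hT0 hpSmin)
  have hurS0 := unram_outside ρbar p Smin T0 hpSmin hT0 hmin
  have hN := isGood_dual_ad0F ρbar p hchar Smin T0 hpSmin hT0 hmin
  -- the levels
  obtain ⟨E₁, hE₁S, hE₁⟩ := exists_field_ker ρbar (toPrimes T0) hurS0
  obtain ⟨E₂, hE₂p, hE₂⟩ := KeyAux24.exists_field_le_Cn p n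
  have hE₂S : E₂.IsUnramifiedOutside (toPrimes T0) :=
    hE₂p.mono (Finset.singleton_subset_iff.2 hpS0)
  obtain ⟨c, rfl⟩ := LevelCoh28.H1mk_surjective (globalBasis (toPrimes T0))
    (dual (ad0F ρbar p hchar)) x
  -- the element `σ`
  obtain ⟨σ, hσC, hσG, hσc⟩ : ∃ σ ∈ Cn p n, Good ρbar σ ∧
      (LevelCoh28.H1mk (globalBasis (toPrimes T0)) (dual (ad0F ρbar p hchar)) c ≠ 0 →
        ¬ CobAt (dual (ad0F ρbar p hchar)).ρ (c : Γ → dual (ad0F ρbar p hchar)) σ) := by
    by_cases hx : LevelCoh28.H1mk (globalBasis (toPrimes T0)) (dual (ad0F ρbar p hchar)) c = 0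
    · obtain ⟨σ, hσC, hσG⟩ := SelAd24c.sel0_final ρbar p hchar hp2 habs hTW hsplit n
      exact ⟨σ, hσC, hσG, fun h => absurd hx h⟩
    · obtain ⟨-, σ, hσC, hσG, hσc⟩ :=
        SelZ1_24.sel_class ρbar p hchar hp2 habs hTW hdet hsplit n (toPrimes T0) c hx
      exact ⟨σ, hσC, hσG, fun _ => hσc⟩
  -- the prime
  obtain ⟨q, A, φ, hqT, hqS0, hA, hφ, hφC, hφG, hres⟩ :=
    KeyPrime59.exists_prime_of_sigma (toPrimes T0) (dual (ad0F ρbar p hchar)) hN c (Good ρbar)
      (MonoidHom.ker ρbar.ρ ⊓ Cn p n) (Cn p n) inf_le_right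
      ⟨E₁ ⊔ E₂, hE₁S.sup hE₂S, by
        rw [IntermediateField.fixingSubgroup_sup]
        exact inf_le_inf hE₁ hE₂⟩
      (fun φ z u hu h => KeyAux24.good_of_zpow_mul ρbar hsplit (MonoidHom.mem_ker.1 hu.1) h)
      σ hσC hσG (T.image (fun q : Nat.Primes => (q : ℕ)) ∪ S)
  have hqT' : q ∉ T := fun h =>
    hqT (Finset.mem_union_left _ (Finset.mem_image_of_mem _ h))
  have hqS : ((q : Nat.Primes) : ℕ) ∉ S := fun h => hqT (Finset.mem_union_right _ h)
  have hqp : ((q : Nat.Primes) : ℕ) ≠ p := fun h => hqS (h ▸ hSmin hpSmin)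
  refine ⟨q, hqT', ⟨hqS, hqS0, ?_, ?_⟩, fun hx => hres (hσc hx)⟩
  · exact KeyAux24.dvd_sub_one_of_frobenius p q.2 hqp A hA hφ hφC
  · intro P hP φ' hφ'
    exact Places24.distinct_eigen_of_frob ρbar q q.2 (hurS0 q hqS0) hA hP hφ hφ' hφG

end Core

end Fermat.Agent.TW.TWP59.TWKillCore59
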