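/-
Programme TW (S56), brick G2 = `SIface72.TWKill` (helper59): FINAL ASSEMBLY, part 2 (the wiring).

`twKill : SIface72.TWKill 𝒪 p`: for every finite base set `T0 ⊇ Smin` and every total family `Ld` of
local conditions for `N = (ad⁰ ρbar)^∨(1)` there is `r` such that for every `n` there is a
Taylor–Wiles family `qv : Fin r → ℕ` of level `n` with
`Sel (T0 ∪ Q) N (⊥ at Q, Ld elsewhere) = ⊥`.
-/
import Mathlib
import Fermat.Agent.TW.TWP59.TWKillCore59

set_option autoImplicit false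
set_option linter.unusedSectionVars false

open Polynomial IsLocalRing
open ExtCitation groupCohomology
open Fermat.Agent.PT.PRO Fermat.Agent.PT.BR Fermat.Agent.PT.BR.LevelBridge13
open Fermat.Agent.TW.Interface Fermat.Agent.TW.GWIface97 Fermat.Agent.TW.SDefs72
open Fermat.Agent.TW.SelAd24a Fermat.Agent.TW.TWP59.Cyclic21
open Fermat.Agent.TW.TWP59.TWKillCore59

namespace Fermat.Agent.TW.TWP59.TWKill59

local notation "Γ" => (AlgebraicClosure ℚ ≃ₐ[ℚ] AlgebraicClosure ℚ)
local notation "Qbar" => AlgebraicClosure ℚ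

/-! ### The brick -/

section Brick

variable (𝒪 : Type) [CommRing 𝒪] [IsDomain 𝒪] [IsDiscreteValuationRing 𝒪]
  [IsAdicComplete (maximalIdeal 𝒪) 𝒪] [Finite (ResidueField 𝒪)]
variable (p : ℕ) [Fact p.Prime]

/-- **G2 = TWKill.** -/
theorem twKill : SIface72.TWKill 𝒪 p := by
  intro ρbar S Smin h T0 hT0 Ld
  have hN := isGood_dual_ad0F ρbar p (SIface72.hchar h) Smin T0 h.hpSmin hT0 h.hmin
  have hpT0 : pPrime p ∈ toPrimes T0 := mem_toPrimes.2 (hT0 h.hpSmin)
  obtain ⟨r, hr⟩ := exists_family_of_key_unif (p := p) (toPrimes T0) hpT0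
    (dual (ad0F ρbar p (SIface72.hchar h))) hN
    (Sel (toPrimes T0) (dual (ad0F ρbar p (SIface72.hchar h))) (fun v => Ld v.1))
    (AdmTW ρbar p S T0)
    (key_step ρbar p (SIface72.hchar h) h.hp2 h.habs h.hTW h.hdet h.hsplit S Smin T0
      h.hpSmin h.hSmin hT0 h.hmin)
  refine ⟨r, fun n => ?_⟩
  obtain ⟨qv', hinj, hAdm, hzero⟩ := hr n
  refine ⟨fun j => ((qv' j : Nat.Primes) : ℕ), ⟨?_, ?_, ?_⟩, ?_⟩
  · exact fun i j hij => hinj (Subtype.ext hij)
  · exact fun i => ⟨(qv' i).2, (hAdm i).1, (hAdm i).2.2.1⟩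
  · exact fun i => (hAdm i).2.2.2
  · -- the Selmer group
    refine sel_family_eq_bot (p := p) T0 (dual (ad0F ρbar p (SIface72.hchar h))) hN Ld qv'
      (fun j => (hAdm j).2.1) hzero (Finset.univ.image (fun j => ((qv' j : Nat.Primes) : ℕ))) ?_
      (T0 ∪ Finset.univ.image (fun j => ((qv' j : Nat.Primes) : ℕ)))
      (fun x => Finset.mem_union) _ (fun v hv => if_pos hv) (fun v hv => if_neg hv)
    intro v
    constructor
    · intro hv
      obtain ⟨j, -, hj⟩ := Finset.mem_image.1 hv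
      exact ⟨j, Subtype.ext hj⟩
    · rintro ⟨j, hj⟩
      exact Finset.mem_image.2 ⟨j, Finset.mem_univ j, congrArg Subtype.val hj⟩

end Brick

end Fermat.Agent.TW.TWP59.TWKill59
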