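/-
Programme TW (S56), brick G2 (K2) (helper24): local non-vanishing at a Frobenius element.

`N` good for `S0`, `q ∉ S0`, `c` a level-`S0` cocycle.  If the localisation at `q` of the class of `c`
vanishes, then `c` is a coboundary at EVERY Frobenius element over `q`
(`Cyclic21.CobAt N.ρ c φ`).  Contrapositive: `res1_ne_zero_of_not_cobAt`.

Ingredients: `LocalGen66.exists_frobenius_global` (a Frobenius element in the image of the local Galois
group), `Places24` (transitivity on places, conjugation of Frobenius elements, Frobenius elements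
modulo inertia), `Cyclic21` (conjugation invariance of `CobAt`).
-/
import Fermat.Agent.TW.LocalGen66
import Fermat.Agent.TW.LocTW9
import Fermat.Agent.TW.TWP59.Places24
import Fermat.Agent.TW.TWP59.Cyclic21

set_option autoImplicit false

open scoped Pointwise
open ExtCitation groupCohomology
open Fermat.Agent.PT.PRO Fermat.Agent.PT.BR Fermat.Agent.PT.BR.LevelBridge13
open Fermat.Agent.TW.GWIface97 Fermat.Agent.TW.TWP59.Cyclic21

namespace Fermat.Agent.TW.TWP59.KeyLoc24

local notation "Γ" => (AlgebraicClosure ℚ ≃ₐ[ℚ] AlgebraicClosure ℚ)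
local notation "Qb" => AlgebraicClosure ℚ

variable {p : ℕ} [Fact p.Prime]

/-- left translation by an element acting trivially on which `c` vanishes -/
theorem cobAt_mul_left {G : Type*} [Group G] {R : Type*} [CommRing R] {A : Type*} [AddCommGroup A]
    [Module R A] {ρ : G →* Module.End R A} {c : G → A} (hc : IsCoc ρ c) (u g : G) (hu : ρ u = 1)
    (hcu : c u = 0) : CobAt ρ c (u * g) ↔ CobAt ρ c g := by
  rw [cobAt_iff, cobAt_iff, hc u g, hcu, zero_add, hu, Module.End.one_apply, _root_.map_mul, hu,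
    one_mul]

section Main

variable (S0 : Finset Nat.Primes) (N : Rep.{0} (ZMod p) Γ) (hN : IsGood S0 N)
  (c : ↥(LevelCoh28.Z1 (globalBasis S0) N))

/-- The cocycle identity for a level cocycle, in the vocabulary of `Cyclic21`. -/
theorem isCoc : IsCoc N.ρ (c : Γ → N) := by
  intro σ τ
  rw [(mem_cocycles₁_iff (c : Γ → N)).mp ((LevelCoh28.mem_Z1_iff _ _ _).mp c.2).1 σ τ, add_comm]

include hN in
/-- A level-`S0` cocycle vanishes on the inertia groups at `q ∉ S0`, and these act trivially. -/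
theorem inertia_trivial {q : Nat.Primes} (hq : q ∉ S0) (A : ValuationSubring Qb)
    (hA : A.LiesOverPrime (q : ℕ)) {i : Γ} (hi : i ∈ A.inertiaSubgroupIn ℚ) :
    N.ρ i = 1 ∧ (c : Γ → N) i = 0 := by
  refine ⟨hN.unram q hq A hA i hi, ?_⟩
  obtain ⟨_, ⟨F, hF, rfl⟩, hinv⟩ := ((LevelCoh28.mem_Z1_iff _ _ _).mp c.2).2
  have h1 := hinv 1 i (hF.2 q hq A hA hi)
  rw [one_mul, (isCoc S0 N c).map_one] at h1
  exact h1

include hN in
/-- If the localisation at `q ∉ S0` of the class of `c` vanishes, then `c` is a coboundary at every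
Frobenius element over `q`. -/
theorem cobAt_of_res1_eq_zero {q : Nat.Primes} (hq : q ∉ S0)
    (h0 : res1 S0 q N (LevelCoh28.H1mk (globalBasis S0) N c) = 0)
    (A : ValuationSubring Qb) (hA : A.LiesOverPrime (q : ℕ)) {φ : Γ}
    (hφ : A.IsFrobeniusAt φ (q : ℕ)) : CobAt N.ρ (c : Γ → N) φ := by
  have hc := isCoc S0 N c
  -- the local cocycle is a coboundary
  rw [res1, ShaBridge13.resH1_mk, LevelCoh28.H1mk_eq_zero_iff] at h0
  obtain ⟨m, hm⟩ := h0
  -- a Frobenius element in the image of the local Galois group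
  obtain ⟨g0, hg0⟩ := Fermat.Agent.TW.LocalGen66.exists_frobenius_global q
  set φ0 : Γ := primeLocalToGlobal q g0 with hφ0
  have h1 : CobAt N.ρ (c : Γ → N) φ0 := by
    rw [cobAt_iff]
    refine ⟨m, ?_⟩
    have := congrFun hm g0
    rw [d₀₁_hom_apply] at this
    exact this
  -- move to the place `A`
  have hP0 := Fermat.Agent.TW.LocTW9.primeLocalPlace_liesOverPrime q
  obtain ⟨γ, hγ⟩ := Places24.exists_smul_eq (q : ℕ) q.2 (primeLocalPlace q) A hP0 hA
  have h2 : A.IsFrobeniusAt (γ * φ0 * γ⁻¹) (q : ℕ) := hγ ▸ Places24.isFrobeniusAt_conj hg0 γ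
  have h3 : CobAt N.ρ (c : Γ → N) (γ * φ0 * γ⁻¹) := (cobAt_conj hc γ φ0).mpr h1
  -- two Frobenius elements at `A` differ by inertia
  have h4 := Places24.mul_inv_mem_inertia h2 hφ
  obtain ⟨hi1, hi2⟩ := inertia_trivial S0 N hN c hq A hA h4
  have h5 : φ = (φ * (γ * φ0 * γ⁻¹)⁻¹) * (γ * φ0 * γ⁻¹) := by group
  rw [h5, cobAt_mul_left hc _ _ hi1 hi2]
  exact h3

include hN in
/-- **(K2)** If `c` is not a coboundary at some Frobenius element over `q ∉ S0`, then the localisation
at `q` of the class of `c` is nonzero. -/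
theorem res1_ne_zero_of_not_cobAt {q : Nat.Primes} (hq : q ∉ S0)
    (A : ValuationSubring Qb) (hA : A.LiesOverPrime (q : ℕ)) {φ : Γ}
    (hφ : A.IsFrobeniusAt φ (q : ℕ)) (h : ¬ CobAt N.ρ (c : Γ → N) φ) :
    res1 S0 q N (LevelCoh28.H1mk (globalBasis S0) N c) ≠ 0 :=
  fun h0 => h (cobAt_of_res1_eq_zero S0 N hN c hq h0 A hA hφ)

end Main

end Fermat.Agent.TW.TWP59.KeyLoc24
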